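import Fermat.Agent.CAR.NRM.Glue2
import Fermat.Agent.CAR.BK.Quot
import Fermat.Agent.CAR.NS.Defs

/-!
# CAR / NRM / Adapter : from the gluing datum of [NRM] to the hypothesis `GLUE` of `NS.chart_main`, in the language of [BK].

`datOf v ρ i₀ vL KK E P1 P2` is the `NRM.Dat` attached to a `BK` datum (family `v, ρ` indexed by `Idx I`, one middle index `i₀`).
`exists_point` : a maximal (any) ideal `P` of `B_u` containing the three vertical primes defines ONE point `χ : R' → B_u ⧸ P` of the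
reduced ring with `χ (r_l z) = z mod P` for the three reduction maps `r_l`.
`glue` : the hypothesis `GLUE` of `NS.chart_main` with `c = q² - 1`.
-/

set_option autoImplicit false

open Polynomial ModularCurve AlgebraicCurve

noncomputable section

namespace Fermat.Agent.CAR.NRM

open Fermat.Agent.GAL.KL Fermat.Agent.GAL.KLC Fermat.Agent.TOR.T1 Fermat.Agent.CAR.ON
open Fermat.Agent.GAL Fermat.Agent.CAR Fermat.Agent.CAR.BK

variable {K F₀ F k Γ' Γ₀ I : Type*} [Field K] [Field F₀] [Field F] [Algebra K F₀]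
  [Algebra K F] [Field k] [LinearOrderedCommGroupWithZero Γ'] [LinearOrderedCommGroupWithZero Γ₀]
  {v₀ : Valuation F₀ Γ'} {ρ₀ : v₀.integer →+* LaurentSeries k}
  {v : Idx I → Valuation F Γ₀} {ρ : ∀ i, (v i).integer →+* LaurentSeries k}
  {α β γ : F₀ →ₐ[K] F} {q : ℕ} [NeZero q] {E₀ : Subfield F₀} {E : Subfield F}
  {u₀ : F₀} {u : F} {η : LaurentSeries k}

/-- the `NRM` datum attached to a `BK` datum. -/
def datOf (v : Idx I → Valuation F Γ₀) (ρ : ∀ i, (v i).integer →+* LaurentSeries k) (i₀ : I)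
    (vL : Valuation K Γ₀) (KK : Subfield K) (E : Subfield F) (P1 P2 : F →* F) : Dat K F k Γ₀ where
  vo := v oo
  vm := v (md i₀)
  vz := v zr
  ρo := ρ oo
  ρm := ρ (md i₀)
  ρz := ρ zr
  vL := vL
  KK := KK
  FK := E
  P1 := P1
  P2 := P2

/-- `Rd3` for `datOf` in terms of the three indices. -/
theorem rd3_datOf_iff {i₀ : I} {vL : Valuation K Γ₀} {KK : Subfield K} {P1 P2 : F →* F} {z : F}
    {a : Idx Unit → LaurentSeries k} :
    (datOf v ρ i₀ vL KK E P1 P2).Rd3 z (a oo) (a (md ())) (a zr) ↔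
      ∀ l, Rd (ρ (l3 i₀ l)) z (a l) := by
  constructor
  · rintro ⟨h1, h2, h3⟩ l
    rcases l with _ | _ | ⟨⟩
    · exact h1
    · exact h3
    · exact h2
  · intro h
    exact ⟨h oo, h (md ()), h zr⟩

/-- **the point of the reduced ring defined by a triple point of the chart.** -/
theorem exists_point (H : Lvl2 K ρ₀ v ρ α β γ q) (C : ChartK K ρ₀ ρ α γ E₀ E q u₀ u η) (i₀ : I)
    {P : Ideal (Bu K E v u)} (hP : ∀ l, pK K E v u i₀ l ≤ P) :
    ∃ χ : RP.RR (CTV.Fbar H.red₀) η →+* (Bu K E v u ⧸ P),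
      ∀ (l : Idx Unit) (z : Bu K E v u) (a : RP.RR (CTV.Fbar H.red₀) η),
        (a : LaurentSeries k) = rK K E ρ u i₀ l z → χ a = Ideal.Quotient.mk P z := by
  obtain ⟨e, he⟩ := exists_quotEquiv H C i₀ oo
  let χ : RP.RR (CTV.Fbar H.red₀) η →+* (Bu K E v u ⧸ P) :=
    (Ideal.Quotient.factor (hP oo)).comp (e.symm : _ →+* _)
  have h_oo : ∀ (z : Bu K E v u) (a : RP.RR (CTV.Fbar H.red₀) η),
      (a : LaurentSeries k) = rK K E ρ u i₀ oo z → χ a = Ideal.Quotient.mk P z := by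
    intro z a ha
    have h1 : a = e (Ideal.Quotient.mk _ z) := Subtype.ext (by rw [ha, he])
    show Ideal.Quotient.factor (hP oo) (e.symm a) = _
    rw [h1, RingEquiv.symm_apply_apply, Ideal.Quotient.factor_mk]
  have hcong : ∀ (l : Idx Unit) (z z' : Bu K E v u), rK K E ρ u i₀ l z = rK K E ρ u i₀ l z' →
      Ideal.Quotient.mk P z = Ideal.Quotient.mk P z' := by
    intro l z z' h
    rw [Ideal.Quotient.eq]
    apply hP l
    rw [← rK_eq_zero_iff H, map_sub, h, sub_self]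
  have hlift : ∀ a : RP.RR (CTV.Fbar H.red₀) η, ∃ c' ∈ E₀, IsInt K u₀ c' ∧
      Rd ρ₀ c' (a : LaurentSeries k) := by
    intro a
    have ha := a.2
    rw [RP.mem_RR] at ha
    obtain ⟨c, hc⟩ := (mem_Fbar_iff H.red₀).1 ha.1
    exact C.lift c _ hc ha.2
  have h_md : ∀ (z : Bu K E v u) (a : RP.RR (CTV.Fbar H.red₀) η),
      (a : LaurentSeries k) = rK K E ρ u i₀ (md ()) z → χ a = Ideal.Quotient.mk P z := by
    intro z a ha
    obtain ⟨c', hc'E, hi, hr⟩ := hlift a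
    obtain ⟨z', -, h1, h2, -⟩ := exists_α H C i₀ hc'E hi hr
    rw [h_oo z' a h1.symm]
    exact hcong (md ()) _ _ (by rw [h2, ha])
  have h_zr : ∀ (z : Bu K E v u) (a : RP.RR (CTV.Fbar H.red₀) η),
      (a : LaurentSeries k) = rK K E ρ u i₀ zr z → χ a = Ideal.Quotient.mk P z := by
    intro z a ha
    obtain ⟨c', hc'E, hi, hr⟩ := hlift a
    obtain ⟨z', -, -, h1, h2⟩ := exists_γ H C i₀ hc'E hi hr
    rw [h_md z' a h1.symm]
    exact hcong zr _ _ (by rw [h2, ha])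
  refine ⟨χ, fun l => ?_⟩
  rcases l with _ | _ | ⟨⟩
  · exact h_oo
  · exact h_zr
  · exact h_md

/-- the reductions of a section of `Lam` lie in the reduced ring. -/
theorem exists_red_of_lam (H : Lvl2 K ρ₀ v ρ α β γ q) (C : ChartK K ρ₀ ρ α γ E₀ E q u₀ u η) (i₀ : I)
    {n : ℕ} (hn : 0 < n) {w : E} (hw : ∀ l, Rd (ρ (l3 i₀ l)) (w : F) 1) {φ : E}
    (hφ : φ ∈ NS.Lam (Bu K E v u) n w) (l : Idx Unit) :
    ∃ a : RP.RR (CTV.Fbar H.red₀) η, Rd (ρ (l3 i₀ l)) (φ : F) (a : LaurentSeries k) := by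
  have hU : φ ^ n * w ∈ Bu K E v u := hφ
  have hw1 : v (l3 i₀ l) (w : F) = 1 := (hw l).v_eq_one (H.red _) one_ne_zero
  have hφ1 : v (l3 i₀ l) (φ : F) ≤ 1 := by
    by_contra hcon
    rw [not_le] at hcon
    have h1 : v (l3 i₀ l) ((φ ^ n * w : E) : F) ≤ 1 := hU.2 _
    rw [Subfield.coe_mul, SubmonoidClass.coe_pow, map_mul, map_pow, hw1, mul_one] at h1
    exact absurd h1 (not_le.2 (one_lt_pow₀ hcon hn.ne'))
  obtain ⟨ψ, hψ⟩ := exists_rd (ρ := ρ (l3 i₀ l)) hφ1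
  have h2 : rK K E ρ u i₀ l ⟨φ ^ n * w, hU⟩ = ψ ^ n := by
    have h3 := (hψ.pow n).mul (hw l)
    rw [mul_one] at h3
    exact (rd_rK E ρ u i₀ l ⟨φ ^ n * w, hU⟩).unique h3
  have h4 := rK_mem_RR H C i₀ l ⟨φ ^ n * w, hU⟩
  rw [h2, RP.mem_RR] at h4
  exact ⟨⟨ψ, (RP.mem_RR).2 ⟨(mem_Fbar_iff H.red₀).2 (C.res _ φ.2 _ _ hψ), IsInt.of_pow hn h4.2⟩⟩, hψ⟩

/-- **the hypothesis `GLUE` of `NS.chart_main`** (`c = q² - 1`, `e` = constants lifting `(A, 1, B)`, `A = r₂^q / r₁`, `B = r₂ / r₁^q`). -/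
theorem glue (H : Lvl2 K ρ₀ v ρ α β γ q) (C : ChartK K ρ₀ ρ α γ E₀ E q u₀ u η) (i₀ : I)
    {vL : Valuation K Γ₀} {KK : Subfield K} {P1 P2 : F →* F}
    (O : (datOf v ρ i₀ vL KK E P1 P2).Ops q) (hq : 2 ≤ q) {n : ℕ} (hn : 0 < n)
    {w : E} {y₁ y₂ : F} {s₁ r₁ s₂ r₂ : k}
    (G : (datOf v ρ i₀ vL KK E P1 P2).GlueDat q n (w : F) y₁ y₂ s₁ r₁ s₂ r₂)
    (hw : (datOf v ρ i₀ vL KK E P1 P2).Rd3 (w : F) 1 1 1)
    (hP1 : ∀ z, IsInt K u z → IsInt K u (P1 z)) (hP2 : ∀ z, IsInt K u z → IsInt K u (P2 z))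
    (INC : ∀ P : Ideal (Bu K E v u), P.IsMaximal → ∀ i j, i ≠ j → pK K E v u i₀ i ≤ P →
      pK K E v u i₀ j ≤ P → ∀ l, pK K E v u i₀ l ≤ P)
    (e : Idx Unit → Bu K E v u)
    (he_oo : rK K E ρ u i₀ oo (e oo) = HahnSeries.C (r₂ ^ q / r₁))
    (he_md : rK K E ρ u i₀ oo (e (md ())) = 1)
    (he_zr : rK K E ρ u i₀ oo (e zr) = HahnSeries.C (r₂ / r₁ ^ q)) :
    ∀ P : Ideal (Bu K E v u), P.IsMaximal → ∀ φ ∈ NS.Lam (Bu K E v u) n w, ∀ i j,
      pK K E v u i₀ i ≤ P → pK K E v u i₀ j ≤ P → ∀ b b' : Bu K E v u, b ∉ P →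
      v3 E v i₀ i (φ - b) < 1 → v3 E v i₀ j (φ - b') < 1 →
      e j * b ^ (q ^ 2 - 1) - e i * b' ^ (q ^ 2 - 1) ∈ P := by
  intro P hP φ hφ i j hi hj b b' hb hvb hvb'
  by_cases hij : i = j
  · subst hij
    have h1 : b - b' ∈ P := by
      apply hi
      rw [mem_pK]
      have h2 : (((b - b' : Bu K E v u) : E)) = (φ - b') - (φ - b) := by
        push_cast; ring
      rw [h2]
      exact lt_of_le_of_lt (Valuation.map_sub _ _ _) (max_lt hvb' hvb)
    rw [← mul_sub]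
    apply P.mul_mem_left
    obtain ⟨d, hd⟩ := sub_dvd_pow_sub_pow b b' (q ^ 2 - 1)
    rw [hd]
    exact P.mul_mem_right _ h1
  · have hall := INC P hP i j hij hi hj
    obtain ⟨χ, hχ⟩ := exists_point H C i₀ hall
    let _ : Field (Bu K E v u ⧸ P) := Ideal.Quotient.field P
    have hw' : ∀ l, Rd (ρ (l3 i₀ l)) (w : F) 1 :=
      (rd3_datOf_iff (a := fun _ => 1)).1 hw
    choose a ha using exists_red_of_lam H C i₀ hn hw' hφ
    have hU : φ ^ n * w ∈ Bu K E v u := hφ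
    -- values
    have hval : ∀ (l : Idx Unit) (c : Bu K E v u), v3 E v i₀ l (φ - c) < 1 →
        χ (a l) = Ideal.Quotient.mk P c := by
      intro l c hc
      apply hχ l
      have h1 : Rd (ρ (l3 i₀ l)) ((c : E) : F) (a l : LaurentSeries k) := by
        apply (ha l).of_sub_lt (H.red _)
        rw [Valuation.map_sub_swap]
        exact hc
      exact h1.unique (rd_rK E ρ u i₀ l c)
    have hpow : ∀ l, χ (a l) ^ n = Ideal.Quotient.mk P ⟨φ ^ n * w, hU⟩ := by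
      intro l
      rw [← map_pow]
      apply hχ l
      have h3 := ((ha l).pow n).mul (hw' l)
      rw [mul_one] at h3
      exact h3.unique (rd_rK E ρ u i₀ l ⟨φ ^ n * w, hU⟩)
    have hb0 : χ (a i) ≠ 0 := by
      rw [hval i b hvb]
      intro h
      exact hb (Ideal.Quotient.eq_zero_iff_mem.1 h)
    have hm0 : χ (a (md ())) ≠ 0 := by
      intro h
      have h1 := hpow (md ())
      rw [h, zero_pow hn.ne', ← hpow i] at h1
      exact pow_ne_zero n hb0 h1.symm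
    have hc : ∀ r : k, (RP.RR (CTV.Fbar H.red₀) η).val.toRingHom
        (algebraMap k (RP.RR (CTV.Fbar H.red₀) η) r) = HahnSeries.C r := by
      intro r
      show algebraMap k (LaurentSeries k) r = _
      rw [ModularCurve.algebraMap_laurentSeries_eq_single]
      rfl
    have key := GlueDat.valuesK (κ := Bu K E v u ⧸ P) O hq hn G hw w.2 hP1 hP2
      (RP.RR (CTV.Fbar H.red₀) η).val.toRingHom (algebraMap k (RP.RR (CTV.Fbar H.red₀) η)) hc χ
      (by
        intro z hz hzi a' b' c' hr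
        have hzB : (⟨z, hz⟩ : E) ∈ Bu K E v u := by
          rw [mem_Bu_iff3 C i₀]
          refine ⟨hzi, fun l => ?_⟩
          rcases l with _ | _ | ⟨⟩
          · exact hr.1.le_one
          · exact hr.2.2.le_one
          · exact hr.2.1.le_one
        have e1 := hχ oo ⟨⟨z, hz⟩, hzB⟩ a' (hr.1.unique (rd_rK E ρ u i₀ oo ⟨⟨z, hz⟩, hzB⟩))
        have e2 := hχ (md ()) ⟨⟨z, hz⟩, hzB⟩ b'
          (hr.2.1.unique (rd_rK E ρ u i₀ (md ()) ⟨⟨z, hz⟩, hzB⟩))
        have e3 := hχ zr ⟨⟨z, hz⟩, hzB⟩ c' (hr.2.2.unique (rd_rK E ρ u i₀ zr ⟨⟨z, hz⟩, hzB⟩))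
        exact ⟨e1.trans e2.symm, e2.trans e3.symm⟩)
      (φ := (φ : F)) φ.2 hU.1 (a oo) (a (md ())) (a zr) ⟨ha oo, ha (md ()), ha zr⟩ hm0
    -- the classes of the constants
    have hE : ∀ l, χ (a l) ^ (q ^ 2 - 1) =
        Ideal.Quotient.mk P (e l) * χ (a (md ())) ^ (q ^ 2 - 1) := by
      intro l
      rcases l with _ | _ | ⟨⟩
      · rw [key.1]
        congr 1
        exact hχ oo (e oo) _ (by rw [he_oo]; exact hc _)
      · rw [key.2]
        congr 1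
        exact hχ oo (e zr) _ (by rw [he_zr]; exact hc _)
      · have : Ideal.Quotient.mk P (e (md ())) = 1 := by
          rw [← map_one χ]
          exact (hχ oo (e (md ())) 1 (by rw [he_md]; rfl)).symm
        rw [this, one_mul]
    rw [← Ideal.Quotient.eq_zero_iff_mem, map_sub, map_mul, map_mul, map_pow, map_pow,
      ← hval i b hvb, ← hval j b' hvb', hE i, hE j]
    ring

end Fermat.Agent.CAR.NRM
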