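import Fermat.Agent.CAR.NRM.Main
import Fermat.Agent.CAR.NRM.Adapter

/-!
# CAR / NRM / Export : the export of block [NRM] in the language of [BK] + [NS]

`exists_chart_data` : `h ∈ E^×` (`E = F_K`) with `P1 h, P2 h ∈ K^× (E^×)^n`.  Then there are `a ∈ K^×`, `z ∈ E^×` such that
`w := h^((q+1)(q-1)) a z^n ≡ 1` on the three branches, and `ψ, e, e'` such that ALL the hypotheses `c, ψ, e, e', hee', hψ, hen, GLUE`
of `NS.chart_main` hold for the chart `B_u = BK.Bu K E v u` (`u = t`), with `c = q² - 1`.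
-/

set_option autoImplicit false

open Polynomial ModularCurve AlgebraicCurve

noncomputable section

namespace Fermat.Agent.CAR.NRM

open Fermat.Agent.GAL.KL Fermat.Agent.GAL.KLC Fermat.Agent.TOR.T1 Fermat.Agent.CAR.ON
open Fermat.Agent.GAL Fermat.Agent.CAR Fermat.Agent.CAR.BK

variable {K F₀ F k Γ' Γ₀ I : Type*} [Field K] [Field F₀] [Field F] [Algebra K F₀]
  [Algebra K F] [Field k] [LinearOrderedCommGroupWithZero Γ'] [LinearOrderedCommGroupWithZero Γ₀]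
  {v₀ : Valuation F₀ Γ'} {ρ₀ : v₀.integer →+* LaurentSeries k}
  {v : Idx I → Valuation F Γ₀} {ρ : ∀ i, (v i).integer →+* LaurentSeries k}
  {α β γ : F₀ →ₐ[K] F} {q : ℕ} [NeZero q] {E₀ : Subfield F₀} {E : Subfield F}
  {u₀ : F₀} {u : F} {η : LaurentSeries k}

/-- unit constants of the chart ring. -/
theorem exists_const (C : ChartK K ρ₀ ρ α γ E₀ E q u₀ u η) (i₀ : I)
    {vL : Valuation K Γ₀} {KK : Subfield K} {P1 P2 : F →* F}
    (B : (datOf v ρ i₀ vL KK E P1 P2).Base) (c : k) (hc : c ≠ 0) :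
    ∃ e e' : Bu K E v u, e * e' = 1 ∧ ∀ l, rK K E ρ u i₀ l e = HahnSeries.C c := by
  obtain ⟨a, ha, hR⟩ := B.constK c
  have hC : (HahnSeries.C c : LaurentSeries k) ≠ 0 := by simpa using hc
  have hR' := hR.inv B hC hC hC
  have ha0 : algebraMap K F a ≠ 0 := (hR.u3 B hC hC hC).ne_zero
  have hE : algebraMap K F a ∈ E := B.KF a ha
  have hE' : (algebraMap K F a)⁻¹ ∈ E := E.inv_mem hE
  have hB : (⟨algebraMap K F a, hE⟩ : E) ∈ Bu K E v u := by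
    rw [mem_Bu_iff3 C i₀]
    refine ⟨IsInt.algebraMap a, fun l => ?_⟩
    rcases l with _ | _ | ⟨⟩
    · exact hR.1.le_one
    · exact hR.2.2.le_one
    · exact hR.2.1.le_one
  have hB' : (⟨(algebraMap K F a)⁻¹, hE'⟩ : E) ∈ Bu K E v u := by
    rw [mem_Bu_iff3 C i₀]
    refine ⟨by
      show IsInt K u (algebraMap K F a)⁻¹
      rw [← map_inv₀]; exact IsInt.algebraMap a⁻¹, fun l => ?_⟩
    rcases l with _ | _ | ⟨⟩
    · exact hR'.1.le_one
    · exact hR'.2.2.le_one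
    · exact hR'.2.1.le_one
  refine ⟨⟨_, hB⟩, ⟨_, hB'⟩, ?_, fun l => ?_⟩
  · apply Subtype.ext
    apply Subtype.ext
    exact mul_inv_cancel₀ ha0
  · rcases l with _ | _ | ⟨⟩
    · exact (rd_rK E ρ u i₀ oo ⟨_, hB⟩).unique hR.1
    · exact (rd_rK E ρ u i₀ zr ⟨_, hB⟩).unique hR.2.2
    · exact (rd_rK E ρ u i₀ (md ()) ⟨_, hB⟩).unique hR.2.1

/-- **Export of [NRM] for `NS.chart_main`.** -/
theorem exists_chart_data [IsAlgClosed k] (H : Lvl2 K ρ₀ v ρ α β γ q)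
    (C : ChartK K ρ₀ ρ α γ E₀ E q u₀ u η) (i₀ : I)
    {vL : Valuation K Γ₀} {KK : Subfield K} {P1 P2 : F →* F}
    (A : (datOf v ρ i₀ vL KK E P1 P2).All q) (hq : 2 ≤ q) {n : ℕ} (hn : 0 < n)
    (hqn : Nat.Coprime q n)
    (hP1 : ∀ z, IsInt K u z → IsInt K u (P1 z)) (hP2 : ∀ z, IsInt K u z → IsInt K u (P2 z))
    (INC : ∀ P : Ideal (Bu K E v u), P.IsMaximal → ∀ i j, i ≠ j → pK K E v u i₀ i ≤ P →
      pK K E v u i₀ j ≤ P → ∀ l, pK K E v u i₀ l ≤ P)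
    {h : E} (h0 : h ≠ 0) (h1 : (datOf v ρ i₀ vL KK E P1 P2).NP n P1 (h : F))
    (h2 : (datOf v ρ i₀ vL KK E P1 P2).NP n P2 (h : F)) :
    ∃ a ∈ KK, a ≠ 0 ∧ ∃ z : E, z ≠ 0 ∧ ∃ w : E,
      (w : F) = (h : F) ^ ((q + 1) * (q - 1)) * algebraMap K F a * (z : F) ^ n ∧
      (∀ i, v3 E v i₀ i (w - 1) < 1) ∧
      ∃ (ψ : E) (e e' : Idx Unit → Bu K E v u), ψ ≠ 0 ∧ (∀ i, e i * e' i = 1) ∧
        (∀ i, v3 E v i₀ i (ψ - e i) < 1) ∧ (∀ i, v3 E v i₀ i ((e i : E) ^ n - 1) < 1) ∧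
        ∀ P : Ideal (Bu K E v u), P.IsMaximal → ∀ φ ∈ NS.Lam (Bu K E v u) n w, ∀ i j,
          pK K E v u i₀ i ≤ P → pK K E v u i₀ j ≤ P → ∀ b b' : Bu K E v u, b ∉ P →
          v3 E v i₀ i (φ - b) < 1 → v3 E v i₀ j (φ - b') < 1 →
          e j * b ^ (q ^ 2 - 1) - e i * b' ^ (q ^ 2 - 1) ∈ P := by
  have h0' : (h : F) ≠ 0 := fun hh => h0 (Subtype.ext hh)
  obtain ⟨a, ha, ha0, z, hz, hz0, hwK, hw, n1, n2⟩ := exists_w A hq hn hqn h.2 h0' h1 h2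
  obtain ⟨y₁, y₂, s₁, r₁, s₂, r₂, G⟩ := exists_glueDat A.base A.ops A.disc hn hwK hw n1 n2
  have hAp := approx_of_idem A.idem
  have hr₁0 : r₁ ≠ 0 := by
    intro h
    have := G.hr₁
    rw [h, zero_pow hn.ne'] at this
    exact zero_ne_one this
  have hr₂0 : r₂ ≠ 0 := by
    intro h
    have := G.hr₂
    rw [h, zero_pow hn.ne'] at this
    exact zero_ne_one this
  have hA0 : r₂ ^ q / r₁ ≠ 0 := div_ne_zero (pow_ne_zero _ hr₂0) hr₁0
  have hB0 : r₂ / r₁ ^ q ≠ 0 := div_ne_zero hr₂0 (pow_ne_zero _ hr₁0)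
  have hA : (r₂ ^ q / r₁) ^ n = 1 := by
    rw [div_pow, ← pow_mul, mul_comm, pow_mul, G.hr₂, G.hr₁, one_pow, div_one]
  have hB : (r₂ / r₁ ^ q) ^ n = 1 := by
    rw [div_pow, ← pow_mul, mul_comm q n, pow_mul, G.hr₂, G.hr₁, one_pow, div_one]
  obtain ⟨ζ, hζK, hζ0, hζ⟩ := exists_twist A.base hAp (r₂ ^ q / r₁) (r₂ / r₁ ^ q) hA0 hB0
  obtain ⟨eo, eo', heo, hro⟩ := exists_const C i₀ A.base _ hA0
  obtain ⟨ez, ez', hez, hrz⟩ := exists_const C i₀ A.base _ hB0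
  -- the families
  let cc : Idx Unit → k := fun l => Option.casesOn l (r₂ ^ q / r₁)
    (fun l' => Option.casesOn l' (r₂ / r₁ ^ q) (fun _ => 1))
  let e : Idx Unit → Bu K E v u := fun l => Option.casesOn l eo
    (fun l' => Option.casesOn l' ez (fun _ => 1))
  let e' : Idx Unit → Bu K E v u := fun l => Option.casesOn l eo'
    (fun l' => Option.casesOn l' ez' (fun _ => 1))
  have hre : ∀ i l, rK K E ρ u i₀ l (e i) = HahnSeries.C (cc i) := by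
    intro i l
    rcases i with _ | _ | ⟨⟩
    · exact hro l
    · exact hrz l
    · show rK K E ρ u i₀ l 1 = HahnSeries.C 1
      rw [map_one, map_one]
  have hcc : ∀ i, cc i ^ n = 1 := by
    intro i
    rcases i with _ | _ | ⟨⟩
    · exact hA
    · exact hB
    · exact one_pow n
  have hζ' : ∀ l, Rd (ρ (l3 i₀ l)) ζ (HahnSeries.C (cc l)) := by
    intro l
    rcases l with _ | _ | ⟨⟩
    · exact hζ.1
    · exact hζ.2.2
    · have := hζ.2.1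
      show Rd (ρ (md i₀)) ζ (HahnSeries.C 1)
      rw [map_one]
      exact this
  have hw' : ∀ l, Rd (ρ (l3 i₀ l)) (h ^ ((q + 1) * (q - 1)) * algebraMap K F a * z ^ n : F) 1 :=
    (rd3_datOf_iff (a := fun _ => 1)).1 hw
  refine ⟨a, ha, ha0, ⟨z, hz⟩, fun hh => hz0 (congrArg Subtype.val hh), ⟨_, hwK⟩, rfl, ?_,
    ⟨ζ, hζK⟩, e, e', fun hh => hζ0 (congrArg Subtype.val hh), ?_, ?_, ?_, ?_⟩
  · intro i
    exact (hw' i).sub_lt (H.red _) Rd.one
  · intro i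
    rcases i with _ | _ | ⟨⟩
    · exact heo
    · exact hez
    · exact one_mul 1
  · intro i
    have h3 := rd_rK E ρ u i₀ i (e i)
    rw [hre] at h3
    exact (hζ' i).sub_lt (H.red _) h3
  · intro i
    have h3 := (rd_rK E ρ u i₀ i (e i)).pow n
    rw [hre, ← map_pow, hcc, map_one] at h3
    exact h3.sub_lt (H.red _) Rd.one
  · exact glue H C i₀ A.ops hq hn (w := ⟨_, hwK⟩) G hw hP1 hP2 INC e (hre oo oo)
      (by rw [hre (md ()) oo]; exact map_one _) (hre zr oo)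

end Fermat.Agent.CAR.NRM
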