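import Fermat.Agent.CAR.NRM.Defs
import Fermat.Agent.TOR.T1.Approx

/-!
# CAR / NRM / Approx (package NRM-AP): weak approximation inside `F_K` from approximate idempotents

Proof: as `TOR.T1.approx_small` / `approx2`.  For `e ≡ (1,0,0)` put `e_N := e^N / (e^N + (1-e)^N) ∈ F_K`:
`vo (1 - e_N)`, `vm e_N`, `vz e_N` are `< γ` for `N` large (`Arch`).  Then `z := e_N g₁ + e'_N g₂ + e''_N g₃` with `γ` small
enough w.r.t. the nine values `v_i (g_j)`.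
-/

set_option autoImplicit false

noncomputable section

namespace Fermat.Agent.CAR.NRM

open Fermat.Agent.GAL.KL Fermat.Agent.GAL.KLC Fermat.Agent.TOR.T1

section General

variable {F Γ₀ : Type*} [Field F] [LinearOrderedCommGroupWithZero Γ₀]

/-- sharpening an approximate idempotent `e ≡ (1,0,0)` inside a subfield. -/
theorem approx_idem3 {v₁ v₂ v₃ : Valuation F Γ₀} (hA1 : Arch v₁) (hA2 : Arch v₂) (hA3 : Arch v₃)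
    (K : Subfield F) {e : F} (he : e ∈ K) (h1 : v₁ (e - 1) < 1) (h2 : v₂ e < 1) (h3 : v₃ e < 1)
    {γ₁ γ₂ γ₃ : Γ₀} (hγ₁ : γ₁ ≠ 0) (hγ₂ : γ₂ ≠ 0) (hγ₃ : γ₃ ≠ 0) :
    ∃ E ∈ K, v₁ (1 - E) < γ₁ ∧ v₂ E < γ₂ ∧ v₃ E < γ₃ := by
  have h1' : v₁ (1 - e) < 1 := by rwa [Valuation.map_sub_swap]
  obtain ⟨N₁, hN₁⟩ := Approx_pow_lt hA1 h1' hγ₁
  obtain ⟨N₂, hN₂⟩ := Approx_pow_lt hA2 h2 hγ₂
  obtain ⟨N₃, hN₃⟩ := Approx_pow_lt hA3 h3 hγ₃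
  set N := N₁ + N₂ + N₃ + 1 with hN
  have hN0 : N ≠ 0 := by omega
  have a1 : v₁ e = 1 := by
    have : e = 1 + (e - 1) := by ring
    rw [this, Valuation.map_add_eq_of_lt_left v₁ (by rw [map_one]; exact h1), map_one]
  have a2 : v₂ (1 - e) = 1 := by
    rw [sub_eq_add_neg,
      Valuation.map_add_eq_of_lt_left v₂ (by rw [map_one, Valuation.map_neg]; exact h2), map_one]
  have a3 : v₃ (1 - e) = 1 := by
    rw [sub_eq_add_neg,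
      Valuation.map_add_eq_of_lt_left v₃ (by rw [map_one, Valuation.map_neg]; exact h3), map_one]
  have d1 : v₁ (e ^ N + (1 - e) ^ N) = 1 := Approx_den a1 h1' hN0
  have d2 : v₂ (e ^ N + (1 - e) ^ N) = 1 := by
    rw [add_comm]; exact Approx_den a2 h2 hN0
  have d3 : v₃ (e ^ N + (1 - e) ^ N) = 1 := by
    rw [add_comm]; exact Approx_den a3 h3 hN0
  have hne : e ^ N + (1 - e) ^ N ≠ 0 := by
    intro h
    rw [h, map_zero] at d1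
    exact zero_ne_one d1
  refine ⟨e ^ N / (e ^ N + (1 - e) ^ N), ?_, ?_, ?_, ?_⟩
  · exact K.div_mem (K.pow_mem he N)
      (K.add_mem (K.pow_mem he N) (K.pow_mem (K.sub_mem K.one_mem he) N))
  · have : 1 - e ^ N / (e ^ N + (1 - e) ^ N) = (1 - e) ^ N / (e ^ N + (1 - e) ^ N) := by
      field_simp
      ring
    rw [this, map_div₀, d1, div_one, map_pow]
    exact hN₁ N (by omega)
  · rw [map_div₀, d2, div_one, map_pow]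
    exact hN₂ N (by omega)
  · rw [map_div₀, d3, div_one, map_pow]
    exact hN₃ N (by omega)

/-- the local estimate: `E₁ ≡ 1`, `E₂, E₃` small w.r.t. `g₂ / g₁`, `g₃ / g₁`. -/
theorem approx_local (v : Valuation F Γ₀) {g₁ g₂ g₃ E₁ E₂ E₃ : F} (hg₁ : g₁ ≠ 0) (hg₂ : g₂ ≠ 0)
    (hg₃ : g₃ ≠ 0) (h1 : v (1 - E₁) < 1) (h2 : v E₂ < (v (g₂ / g₁))⁻¹)
    (h3 : v E₃ < (v (g₃ / g₁))⁻¹) :
    v ((E₁ * g₁ + E₂ * g₂ + E₃ * g₃) / g₁ - 1) < 1 := by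
  have key : (E₁ * g₁ + E₂ * g₂ + E₃ * g₃) / g₁ - 1 =
      -(1 - E₁) + E₂ * (g₂ / g₁) + E₃ * (g₃ / g₁) := by
    field_simp
    ring
  have e2 : v (g₂ / g₁) ≠ 0 := (Valuation.ne_zero_iff v).2 (div_ne_zero hg₂ hg₁)
  have e3 : v (g₃ / g₁) ≠ 0 := (Valuation.ne_zero_iff v).2 (div_ne_zero hg₃ hg₁)
  rw [key]
  refine Valuation.map_add_lt v (Valuation.map_add_lt v ?_ ?_) ?_
  · rwa [Valuation.map_neg]
  · rw [map_mul]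
    calc v E₂ * v (g₂ / g₁) < (v (g₂ / g₁))⁻¹ * v (g₂ / g₁) :=
          mul_lt_mul_of_pos_right h2 (zero_lt_iff.2 e2)
      _ = 1 := inv_mul_cancel₀ e2
  · rw [map_mul]
    calc v E₃ * v (g₃ / g₁) < (v (g₃ / g₁))⁻¹ * v (g₃ / g₁) :=
          mul_lt_mul_of_pos_right h3 (zero_lt_iff.2 e3)
      _ = 1 := inv_mul_cancel₀ e3

end General

variable {L F k Γ₀ : Type*} [Field L] [Field F] [Algebra L F] [Field k]
  [LinearOrderedCommGroupWithZero Γ₀] {D : Dat L F k Γ₀}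

theorem approx_of_idem (H : D.Idem) : D.Approx := by
  intro g₁ hg₁K g₂ hg₂K g₃ hg₃K hg₁ hg₂ hg₃
  obtain ⟨eo, heoK, ho1, ho2, ho3⟩ := H.eo
  obtain ⟨em, hemK, hm1, hm2, hm3⟩ := H.em
  obtain ⟨ez, hezK, hz1, hz2, hz3⟩ := H.ez
  have ne : ∀ (v : Valuation F Γ₀) {a b : F}, a ≠ 0 → b ≠ 0 → (v (a / b))⁻¹ ≠ 0 :=
    fun v a b ha hb => inv_ne_zero ((Valuation.ne_zero_iff v).2 (div_ne_zero ha hb))
  obtain ⟨E₁, hE₁K, a1, a2, a3⟩ := approx_idem3 H.archo H.archm H.archz D.FK heoK ho1 ho2 ho3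
    (γ₁ := 1) (γ₂ := (D.vm (g₁ / g₂))⁻¹) (γ₃ := (D.vz (g₁ / g₃))⁻¹) one_ne_zero
    (ne D.vm hg₁ hg₂) (ne D.vz hg₁ hg₃)
  obtain ⟨E₂, hE₂K, b2, b1, b3⟩ := approx_idem3 H.archm H.archo H.archz D.FK hemK hm2 hm1 hm3
    (γ₁ := 1) (γ₂ := (D.vo (g₂ / g₁))⁻¹) (γ₃ := (D.vz (g₂ / g₃))⁻¹) one_ne_zero
    (ne D.vo hg₂ hg₁) (ne D.vz hg₂ hg₃)
  obtain ⟨E₃, hE₃K, c3, c1, c2⟩ := approx_idem3 H.archz H.archo H.archm D.FK hezK hz3 hz1 hz2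
    (γ₁ := 1) (γ₂ := (D.vo (g₃ / g₁))⁻¹) (γ₃ := (D.vm (g₃ / g₂))⁻¹) one_ne_zero
    (ne D.vo hg₃ hg₁) (ne D.vm hg₃ hg₂)
  have k1 : D.vo ((E₁ * g₁ + E₂ * g₂ + E₃ * g₃) / g₁ - 1) < 1 :=
    approx_local D.vo hg₁ hg₂ hg₃ a1 b1 c1
  have k2 : D.vm ((E₁ * g₁ + E₂ * g₂ + E₃ * g₃) / g₂ - 1) < 1 := by
    have := approx_local D.vm hg₂ hg₁ hg₃ b2 a2 c2
    rwa [show E₂ * g₂ + E₁ * g₁ + E₃ * g₃ = E₁ * g₁ + E₂ * g₂ + E₃ * g₃ by ring] at this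
  have k3 : D.vz ((E₁ * g₁ + E₂ * g₂ + E₃ * g₃) / g₃ - 1) < 1 := by
    have := approx_local D.vz hg₃ hg₁ hg₂ c3 a3 b3
    rwa [show E₃ * g₃ + E₁ * g₁ + E₂ * g₂ = E₁ * g₁ + E₂ * g₂ + E₃ * g₃ by ring] at this
  refine ⟨E₁ * g₁ + E₂ * g₂ + E₃ * g₃, ?_, ?_, k1, k2, k3⟩
  · exact D.FK.add_mem (D.FK.add_mem (D.FK.mul_mem hE₁K hg₁K) (D.FK.mul_mem hE₂K hg₂K))
      (D.FK.mul_mem hE₃K hg₃K)
  · intro h
    rw [h, zero_div, zero_sub, Valuation.map_neg, map_one] at k1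
    exact lt_irrefl _ k1

end Fermat.Agent.CAR.NRM
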