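import Mathlib

/-!
# CAR / NRM / Arith (package NRM-A): the toric part is killed by `q² - 1`
`α = s₁/s₂`, `β = s₃/s₂`:  `α = r₁ β^q`, `α^q = r₂ β`  ⇒  `β^(q²-1) = r₂ / r₁^q`, `α^(q²-1) = r₂^q / r₁`.
-/

set_option autoImplicit false

namespace Fermat.Agent.CAR.NRM

theorem arith {k : Type*} [Field k] {q : ℕ} (hq : 1 ≤ q) {s₁ s₂ s₃ r₁ r₂ : k} (h₁ : s₁ ≠ 0)
    (h₂ : s₂ ≠ 0) (h₃ : s₃ ≠ 0) (hr₁ : r₁ ≠ 0)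
    (hi : s₁ * s₂ ^ (q - 1) = r₁ * s₃ ^ q) (hii : s₁ ^ q = r₂ * (s₃ * s₂ ^ (q - 1))) :
    s₁ ^ (q ^ 2 - 1) = r₂ ^ q / r₁ * s₂ ^ (q ^ 2 - 1) ∧
      s₃ ^ (q ^ 2 - 1) = r₂ / r₁ ^ q * s₂ ^ (q ^ 2 - 1) := by
  obtain ⟨p, rfl⟩ : ∃ p, q = p + 1 := ⟨q - 1, by omega⟩
  have he : (p + 1) ^ 2 - 1 = p * (p + 2) := Nat.sub_eq_of_eq_add (by ring)
  rw [he]
  simp only [Nat.add_sub_cancel] at hi hii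
  constructor
  · rw [div_mul_eq_mul_div, eq_div_iff hr₁]
    apply mul_right_cancel₀ h₁
    have e1 : s₁ ^ (p * (p + 2)) * r₁ * s₁ = r₁ * (s₁ ^ (p + 1)) ^ (p + 1) := by ring
    rw [e1, hii]
    have e2 : r₁ * (r₂ * (s₃ * s₂ ^ p)) ^ (p + 1)
        = r₂ ^ (p + 1) * (r₁ * s₃ ^ (p + 1)) * (s₂ ^ p) ^ (p + 1) := by ring
    rw [e2, ← hi]
    ring
  · rw [div_mul_eq_mul_div, eq_div_iff (pow_ne_zero _ hr₁)]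
    apply mul_right_cancel₀ h₃
    have e1 : s₃ ^ (p * (p + 2)) * r₁ ^ (p + 1) * s₃ = (r₁ * s₃ ^ (p + 1)) ^ (p + 1) := by ring
    rw [e1, ← hi]
    have e2 : (s₁ * s₂ ^ p) ^ (p + 1) = s₁ ^ (p + 1) * (s₂ ^ p) ^ (p + 1) := by ring
    rw [e2, hii]
    ring

end Fermat.Agent.CAR.NRM
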