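import Fermat.Agent.CAR.NRM.Defs

/-!
# CAR / NRM / Basic (package NRM-B): elementary facts on `Rd3`, `U3`, `NP`
-/

set_option autoImplicit false

noncomputable section

namespace Fermat.Agent.CAR.NRM

open Fermat.Agent.GAL.KL Fermat.Agent.GAL.KLC Fermat.Agent.TOR.T1

variable {L F k Γ₀ : Type*} [Field L] [Field F] [Algebra L F] [Field k]
  [LinearOrderedCommGroupWithZero Γ₀] {D : Dat L F k Γ₀}

namespace Dat

theorem Rd3.mul {z z' : F} {a b c a' b' c' : LaurentSeries k} (h : D.Rd3 z a b c)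
    (h' : D.Rd3 z' a' b' c') : D.Rd3 (z * z') (a * a') (b * b') (c * c') :=
  ⟨h.1.mul h'.1, h.2.1.mul h'.2.1, h.2.2.mul h'.2.2⟩

theorem Rd3.pow {z : F} {a b c : LaurentSeries k} (h : D.Rd3 z a b c) (N : ℕ) :
    D.Rd3 (z ^ N) (a ^ N) (b ^ N) (c ^ N) :=
  ⟨h.1.pow N, h.2.1.pow N, h.2.2.pow N⟩

theorem Rd3.one : D.Rd3 1 1 1 1 := ⟨Rd.one, Rd.one, Rd.one⟩

theorem Rd3.inv (B : D.Base) {z : F} {a b c : LaurentSeries k} (h : D.Rd3 z a b c) (ha : a ≠ 0)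
    (hb : b ≠ 0) (hc : c ≠ 0) : D.Rd3 z⁻¹ a⁻¹ b⁻¹ c⁻¹ :=
  ⟨h.1.inv B.redo ha, h.2.1.inv B.redm hb, h.2.2.inv B.redz hc⟩

theorem Rd3.div (B : D.Base) {z z' : F} {a b c a' b' c' : LaurentSeries k} (h : D.Rd3 z a b c)
    (h' : D.Rd3 z' a' b' c') (ha : a' ≠ 0) (hb : b' ≠ 0) (hc : c' ≠ 0) :
    D.Rd3 (z / z') (a / a') (b / b') (c / c') :=
  ⟨h.1.div B.redo h'.1 ha, h.2.1.div B.redm h'.2.1 hb, h.2.2.div B.redz h'.2.2 hc⟩

theorem Rd3.u3 (B : D.Base) {z : F} {a b c : LaurentSeries k} (h : D.Rd3 z a b c) (ha : a ≠ 0)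
    (hb : b ≠ 0) (hc : c ≠ 0) : D.U3 z :=
  ⟨h.1.v_eq_one B.redo ha, h.2.1.v_eq_one B.redm hb, h.2.2.v_eq_one B.redz hc⟩

theorem U3.ne_zero {z : F} (h : D.U3 z) : z ≠ 0 := by
  rintro rfl
  have := h.1
  rw [map_zero] at this
  exact zero_ne_one this

theorem U3.mul {z z' : F} (h : D.U3 z) (h' : D.U3 z') : D.U3 (z * z') :=
  ⟨by rw [map_mul, h.1, h'.1, one_mul], by rw [map_mul, h.2.1, h'.2.1, one_mul],
    by rw [map_mul, h.2.2, h'.2.2, one_mul]⟩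

theorem U3.pow {z : F} (h : D.U3 z) (N : ℕ) : D.U3 (z ^ N) :=
  ⟨by rw [map_pow, h.1, one_pow], by rw [map_pow, h.2.1, one_pow], by rw [map_pow, h.2.2, one_pow]⟩

theorem U3.inv {z : F} (h : D.U3 z) : D.U3 z⁻¹ :=
  ⟨by rw [map_inv₀, h.1, inv_one], by rw [map_inv₀, h.2.1, inv_one], by rw [map_inv₀, h.2.2, inv_one]⟩

/-- a unit has nonzero reductions. -/
theorem U3.exists_rd3 (B : D.Base) {z : F} (h : D.U3 z) :
    ∃ a b c : LaurentSeries k, a ≠ 0 ∧ b ≠ 0 ∧ c ≠ 0 ∧ D.Rd3 z a b c := by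
  obtain ⟨a, ha⟩ := exists_rd (ρ := D.ρo) h.1.le
  obtain ⟨b, hb⟩ := exists_rd (ρ := D.ρm) h.2.1.le
  obtain ⟨c, hc⟩ := exists_rd (ρ := D.ρz) h.2.2.le
  refine ⟨a, b, c, ?_, ?_, ?_, ha, hb, hc⟩
  · rintro rfl
    exact absurd ((rd_zero_iff B.redo).1 ha) (by rw [h.1]; exact lt_irrefl _)
  · rintro rfl
    exact absurd ((rd_zero_iff B.redm).1 hb) (by rw [h.2.1]; exact lt_irrefl _)
  · rintro rfl
    exact absurd ((rd_zero_iff B.redz).1 hc) (by rw [h.2.2]; exact lt_irrefl _)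

/-- stability of the norm condition. -/
theorem NP.combine {q : ℕ} {P : F →* F} (hPK : ∀ z ∈ D.FK, P z ∈ D.FK)
    (hPc : ∀ a : L, P (algebraMap L F a) = algebraMap L F a ^ q) {n : ℕ} {h : F}
    (hh : D.NP n P h) (N : ℕ) {a : L} (ha : a ∈ D.KK) (ha0 : a ≠ 0) {z : F} (hz : z ∈ D.FK) :
    D.NP n P (h ^ N * algebraMap L F a * z ^ n) := by
  obtain ⟨κ, hκ, hκ0, y, hy, hP⟩ := hh
  refine ⟨κ ^ N * a ^ q, D.KK.mul_mem (D.KK.pow_mem hκ N) (D.KK.pow_mem ha q),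
    mul_ne_zero (pow_ne_zero _ hκ0) (pow_ne_zero _ ha0), y ^ N * P z,
    D.FK.mul_mem (D.FK.pow_mem hy N) (hPK z hz), ?_⟩
  rw [map_mul, map_mul, map_pow, map_pow, hP, hPc, map_mul, map_pow, map_pow]
  ring

end Dat

end Fermat.Agent.CAR.NRM
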