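import Fermat.Agent.TOR.T1.Defs

/-!
# CAR / NRM : the formal part of Theorem C (norms, vertical valuations, reductions, gluing constants).
Definitions (no sorry).

ABSTRACT SETTING.  `L = ℚ̄`, `F` = function field of `X₀(q² M')` over `L`, `FK ⊆ F` the subfield of elements fixed by
the inertia group `I` (`= F_K`, `K = ℚ̄^I`), `KK ⊆ L` the field `K`.
Three valuations `vo, vm, vz` of `F` (Gauss valuations at the cusps `∞`, one middle cusp, `0`), with reduction maps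
`ρo, ρm, ρz` into `k((Q))`; all of them extend the valuation `vL` of `L`.
`P1 = π₁^* ∘ N₁`, `P2 = π₂^* ∘ N₂ : F →* F` (norm to level `q M'` followed by pull back).  LEVEL `q M'` NEVER APPEARS.

On `FK` :   `red (P1 z) = (a b^(q-1), a b^(q-1), c^q)`,  `red (P2 z) = (a^q, c b^(q-1), c b^(q-1))`   if `red z = (a, b, c)`.
-/

set_option autoImplicit false

open Polynomial

noncomputable section

namespace Fermat.Agent.CAR.NRM

open Fermat.Agent.GAL.KL Fermat.Agent.GAL.KLC Fermat.Agent.TOR.T1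

/-- the data. -/
structure Dat (L F k Γ₀ : Type*) [Field L] [Field F] [Algebra L F] [Field k]
    [LinearOrderedCommGroupWithZero Γ₀] where
  vo : Valuation F Γ₀
  vm : Valuation F Γ₀
  vz : Valuation F Γ₀
  ρo : vo.integer →+* LaurentSeries k
  ρm : vm.integer →+* LaurentSeries k
  ρz : vz.integer →+* LaurentSeries k
  vL : Valuation L Γ₀
  KK : Subfield L
  FK : Subfield F
  P1 : F →* F
  P2 : F →* F

variable {L F k Γ₀ : Type*} [Field L] [Field F] [Algebra L F] [Field k]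
  [LinearOrderedCommGroupWithZero Γ₀]

namespace Dat

variable (D : Dat L F k Γ₀)

/-- `z` reduces to `(a, b, c)` on the three branches. -/
def Rd3 (z : F) (a b c : LaurentSeries k) : Prop := Rd D.ρo z a ∧ Rd D.ρm z b ∧ Rd D.ρz z c

/-- `z` is a unit for the three valuations. -/
def U3 (z : F) : Prop := D.vo z = 1 ∧ D.vm z = 1 ∧ D.vz z = 1

/-- `P h` is a constant of `K` times an `n`-th power in `F_K`  (`P = P1, P2`: "the norm of the class of `h` vanishes"). -/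
def NP (n : ℕ) (P : F →* F) (h : F) : Prop :=
  ∃ κ ∈ D.KK, κ ≠ 0 ∧ ∃ y ∈ D.FK, P h = algebraMap L F κ * y ^ n

/-- basic axioms: reductions, constants. -/
structure Base : Prop where
  redo : IsRed L D.vo D.ρo
  redm : IsRed L D.vm D.ρm
  redz : IsRed L D.vz D.ρz
  vLo : ∀ a : L, D.vo (algebraMap L F a) = D.vL a
  vLm : ∀ a : L, D.vm (algebraMap L F a) = D.vL a
  vLz : ∀ a : L, D.vz (algebraMap L F a) = D.vL a
  KF : ∀ a ∈ D.KK, algebraMap L F a ∈ D.FK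
  /-- a constant has the same reduction on the three branches -/
  constR : ∀ a : L, D.vL a ≤ 1 → ∃ c : k,
    D.Rd3 (algebraMap L F a) (HahnSeries.C c) (HahnSeries.C c) (HahnSeries.C c)
  /-- the residue field of `K` is all of `k` -/
  constK : ∀ c : k, ∃ a ∈ D.KK,
    D.Rd3 (algebraMap L F a) (HahnSeries.C c) (HahnSeries.C c) (HahnSeries.C c)

/-- the two operators `P1 = π₁^* N₁`, `P2 = π₂^* N₂` on `F_K`. -/
structure Ops (q : ℕ) : Prop where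
  P1K : ∀ z ∈ D.FK, D.P1 z ∈ D.FK
  P2K : ∀ z ∈ D.FK, D.P2 z ∈ D.FK
  P1c : ∀ a : L, D.P1 (algebraMap L F a) = algebraMap L F a ^ q
  P2c : ∀ a : L, D.P2 (algebraMap L F a) = algebraMap L F a ^ q
  vP1o : ∀ z ∈ D.FK, D.vo (D.P1 z) = D.vo z * D.vm z ^ (q - 1)
  vP1m : ∀ z ∈ D.FK, D.vm (D.P1 z) = D.vo z * D.vm z ^ (q - 1)
  vP1z : ∀ z ∈ D.FK, D.vz (D.P1 z) = D.vz z ^ q
  vP2o : ∀ z ∈ D.FK, D.vo (D.P2 z) = D.vo z ^ q
  vP2m : ∀ z ∈ D.FK, D.vm (D.P2 z) = D.vz z * D.vm z ^ (q - 1)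
  vP2z : ∀ z ∈ D.FK, D.vz (D.P2 z) = D.vz z * D.vm z ^ (q - 1)
  rP1 : ∀ z ∈ D.FK, ∀ a b c, D.Rd3 z a b c →
    D.Rd3 (D.P1 z) (a * b ^ (q - 1)) (a * b ^ (q - 1)) (c ^ q)
  rP2 : ∀ z ∈ D.FK, ∀ a b c, D.Rd3 z a b c →
    D.Rd3 (D.P2 z) (a ^ q) (c * b ^ (q - 1)) (c * b ^ (q - 1))

/-- discreteness of the three valuations on `F_K` (`ϖ = |q|`; ramification indices `1, q-1, 1`). -/
structure Disc (q : ℕ) : Prop where
  q_lt : D.vL (q : L) < 1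
  q_ne : D.vL (q : L) ≠ 0
  dK : ∀ a ∈ D.KK, a ≠ 0 → ∃ e : ℤ, D.vL a = D.vL (q : L) ^ e
  dO : ∀ z ∈ D.FK, z ≠ 0 → ∃ e : ℤ, D.vo z = D.vL (q : L) ^ e
  dm : ∀ z ∈ D.FK, z ≠ 0 → ∃ e : ℤ, D.vm z ^ (q - 1) = D.vL (q : L) ^ e
  dz : ∀ z ∈ D.FK, z ≠ 0 → ∃ e : ℤ, D.vz z = D.vL (q : L) ^ e
  /-- a uniformiser of the middle valuation -/
  um : ∃ δ ∈ D.FK, δ ≠ 0 ∧ D.vm δ ^ (q - 1) = D.vL (q : L)

/-- weak approximation inside `F_K`. -/
def Approx : Prop :=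
  ∀ g₁ ∈ D.FK, ∀ g₂ ∈ D.FK, ∀ g₃ ∈ D.FK, g₁ ≠ 0 → g₂ ≠ 0 → g₃ ≠ 0 →
    ∃ z ∈ D.FK, z ≠ 0 ∧ D.vo (z / g₁ - 1) < 1 ∧ D.vm (z / g₂ - 1) < 1 ∧ D.vz (z / g₃ - 1) < 1

/-- approximate idempotents of `F_K` (`≡ (1,0,0), (0,1,0), (0,0,1)`). -/
structure Idem : Prop where
  archo : Arch D.vo
  archm : Arch D.vm
  archz : Arch D.vz
  eo : ∃ e ∈ D.FK, D.vo (e - 1) < 1 ∧ D.vm e < 1 ∧ D.vz e < 1
  em : ∃ e ∈ D.FK, D.vo e < 1 ∧ D.vm (e - 1) < 1 ∧ D.vz e < 1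
  ez : ∃ e ∈ D.FK, D.vo e < 1 ∧ D.vm e < 1 ∧ D.vz (e - 1) < 1

/-- the residue field of `vo` on `F_K` is contained in that of `vm`  (both are `red (F'_K)`). -/
def Transfer : Prop := ∀ z ∈ D.FK, ∀ φ, Rd D.ρo z φ → ∃ z' ∈ D.FK, Rd D.ρm z' φ

end Dat

end Fermat.Agent.CAR.NRM
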