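import Fermat.Agent.CAR.NRM.Unit
import Fermat.Agent.CAR.NRM.Arith
import Fermat.Agent.GAL.KL.BasicInt

/-!
# CAR / NRM / Glue (package NRM-G): the gluing relations, on the chart `t`  (level `q M'` never appears)

`w ∈ F_K`, `w ≡ 1` on the three branches, `P1 w = κ₁ y₁^n`, `P2 w = κ₂ y₂^n` with `y₁ ≡ (1, s₁, r₁)`, `y₂ ≡ (1, s₂, r₂)` constants
(`exists_const_root`; `red (P_j w) = (1,1,1)` by `rP1`, `rP2`).
For `φ ∈ F_K` with `φ^n w ∈ B_t`, `red φ = (a, b, c)`:   `E₁ := y₁ P1 φ`, `E₂ := y₂ P2 φ` satisfy `E_j^n = κ_j⁻¹ P_j (φ^n w) ∈ B_t`, so `E_j ∈ B_t`, and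
  `red E₁ = (a b^(q-1), s₁ a b^(q-1), r₁ c^q)`,   `red E₂ = (a^q, s₂ c b^(q-1), r₂ c b^(q-1))`.
At a point `χ` where the three branches are glued this gives `s₁ s₂^(q-1) = r₁ s₃^q`, `s₁^q = r₂ s₃ s₂^(q-1)` for the values of `φ`, hence (`arith`)
  `χ(a)^(q²-1) = A χ(b)^(q²-1)`, `χ(c)^(q²-1) = B χ(b)^(q²-1)` with `A = r₂^q / r₁`, `B = r₂ / r₁^q` INDEPENDENT of `φ`, `χ`, and `A^n = B^n = 1`.
-/

set_option autoImplicit false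

noncomputable section

namespace Fermat.Agent.CAR.NRM

open Fermat.Agent.GAL.KL Fermat.Agent.GAL.KLC Fermat.Agent.TOR.T1

variable {L F k Γ₀ : Type*} [Field L] [Field F] [Algebra L F] [Field k]
  [LinearOrderedCommGroupWithZero Γ₀] {D : Dat L F k Γ₀}

/-- integrality of `E = y * P φ`. -/
theorem isInt_E {t : F} {P : F →* F} (hP : ∀ z, IsInt L t z → IsInt L t (P z)) {n : ℕ}
    (hn : 0 < n) {w y φ : F} {κ : L} (hκ : κ ≠ 0) (hw : P w = algebraMap L F κ * y ^ n)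
    (hφ : IsInt L t (φ ^ n * w)) : IsInt L t (y * P φ) := by
  apply IsInt.of_pow hn
  have h1 : (y * P φ) ^ n = algebraMap L F κ⁻¹ * P (φ ^ n * w) := by
    have hκ' : algebraMap L F κ ≠ 0 := (map_ne_zero _).2 hκ
    rw [map_mul, map_pow, hw, map_inv₀]
    field_simp
    ring
  rw [h1]
  exact (IsInt.algebraMap κ⁻¹).mul (hP _ hφ)

/-- the gluing datum of `w`: the two multipliers `y₁, y₂` and the constants. -/
structure Dat.GlueDat (D : Dat L F k Γ₀) (q n : ℕ) (w y₁ y₂ : F) (s₁ r₁ s₂ r₂ : k) : Prop where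
  y₁K : y₁ ∈ D.FK
  y₂K : y₂ ∈ D.FK
  hs₁ : s₁ ^ n = 1
  hr₁ : r₁ ^ n = 1
  hs₂ : s₂ ^ n = 1
  hr₂ : r₂ ^ n = 1
  ry₁ : D.Rd3 y₁ 1 (HahnSeries.C s₁) (HahnSeries.C r₁)
  ry₂ : D.Rd3 y₂ 1 (HahnSeries.C s₂) (HahnSeries.C r₂)
  P1w : ∃ κ : L, κ ≠ 0 ∧ D.P1 w = algebraMap L F κ * y₁ ^ n
  P2w : ∃ κ : L, κ ≠ 0 ∧ D.P2 w = algebraMap L F κ * y₂ ^ n

theorem exists_glueDat [IsAlgClosed k] (B : D.Base) {q : ℕ} (O : D.Ops q) (Dc : D.Disc q) {n : ℕ}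
    (hn : 0 < n) {w : F} (hK : w ∈ D.FK) (hw : D.Rd3 w 1 1 1) (h1 : D.NP n D.P1 w)
    (h2 : D.NP n D.P2 w) :
    ∃ (y₁ y₂ : F) (s₁ r₁ s₂ r₂ : k), D.GlueDat q n w y₁ y₂ s₁ r₁ s₂ r₂ := by
  have e1 : D.Rd3 (D.P1 w) 1 1 1 := by
    have := O.rP1 w hK 1 1 1 hw
    simpa using this
  have e2 : D.Rd3 (D.P2 w) 1 1 1 := by
    have := O.rP2 w hK 1 1 1 hw
    simpa using this
  obtain ⟨y₁, hy₁, κ₁, hκ₁, hw₁, s₁, r₁, hs₁, hr₁, hR₁⟩ := exists_const_root B Dc hn e1 h1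
  obtain ⟨y₂, hy₂, κ₂, hκ₂, hw₂, s₂, r₂, hs₂, hr₂, hR₂⟩ := exists_const_root B Dc hn e2 h2
  exact ⟨y₁, y₂, s₁, r₁, s₂, r₂, hy₁, hy₂, hs₁, hr₁, hs₂, hr₂, hR₁, hR₂, ⟨κ₁, hκ₁, hw₁⟩,
    ⟨κ₂, hκ₂, hw₂⟩⟩

/-- **(G1), (G2)**: the two elements of `B_t ∩ F_K` attached to a section `φ`. -/
theorem GlueDat.sections {q : ℕ} (O : D.Ops q) {n : ℕ} (hn : 0 < n) {w y₁ y₂ : F}
    {s₁ r₁ s₂ r₂ : k} (G : D.GlueDat q n w y₁ y₂ s₁ r₁ s₂ r₂) {t : F}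
    (hP1 : ∀ z, IsInt L t z → IsInt L t (D.P1 z)) (hP2 : ∀ z, IsInt L t z → IsInt L t (D.P2 z))
    {φ : F} (hφK : φ ∈ D.FK) (hφ : IsInt L t (φ ^ n * w)) {a b c : LaurentSeries k}
    (hr : D.Rd3 φ a b c) :
    (y₁ * D.P1 φ ∈ D.FK ∧ IsInt L t (y₁ * D.P1 φ) ∧
      D.Rd3 (y₁ * D.P1 φ) (a * b ^ (q - 1)) (HahnSeries.C s₁ * (a * b ^ (q - 1)))
        (HahnSeries.C r₁ * c ^ q)) ∧
    (y₂ * D.P2 φ ∈ D.FK ∧ IsInt L t (y₂ * D.P2 φ) ∧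
      D.Rd3 (y₂ * D.P2 φ) (a ^ q) (HahnSeries.C s₂ * (c * b ^ (q - 1)))
        (HahnSeries.C r₂ * (c * b ^ (q - 1)))) := by
  obtain ⟨κ₁, hκ₁, hw₁⟩ := G.P1w
  obtain ⟨κ₂, hκ₂, hw₂⟩ := G.P2w
  refine ⟨⟨D.FK.mul_mem G.y₁K (O.P1K φ hφK), isInt_E hP1 hn hκ₁ hw₁ hφ, ?_⟩,
    ⟨D.FK.mul_mem G.y₂K (O.P2K φ hφK), isInt_E hP2 hn hκ₂ hw₂ hφ, ?_⟩⟩
  · have := G.ry₁.mul (O.rP1 φ hφK a b c hr)
    rwa [one_mul] at this
  · have := G.ry₂.mul (O.rP2 φ hφK a b c hr)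
    rwa [one_mul] at this

/-- **values at a glued point.**  `S` = the reduced ring `R'` (any subring of `k((Q))` containing the constants), `χ : S → k` a point
at which the three branches of the chart `t` are glued (`hχ`). -/
theorem GlueDat.values {q : ℕ} (O : D.Ops q) (hq : 2 ≤ q) {n : ℕ} (hn : 0 < n) {w y₁ y₂ : F}
    {s₁ r₁ s₂ r₂ : k} (G : D.GlueDat q n w y₁ y₂ s₁ r₁ s₂ r₂) (hw : D.Rd3 w 1 1 1) (hwK : w ∈ D.FK)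
    {t : F}
    (hP1 : ∀ z, IsInt L t z → IsInt L t (D.P1 z)) (hP2 : ∀ z, IsInt L t z → IsInt L t (D.P2 z))
    (S : Subring (LaurentSeries k)) (hC : ∀ r : k, HahnSeries.C r ∈ S) (χ : S →+* k)
    (hχC : ∀ r : k, χ ⟨HahnSeries.C r, hC r⟩ = r)
    (hχ : ∀ z ∈ D.FK, IsInt L t z → ∀ a b c : S, D.Rd3 z a b c → χ a = χ b ∧ χ b = χ c)
    {φ : F} (hφK : φ ∈ D.FK) (hφ : IsInt L t (φ ^ n * w)) (a b c : S) (hr : D.Rd3 φ a b c)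
    (hb : χ b ≠ 0) :
    χ a ^ (q ^ 2 - 1) = r₂ ^ q / r₁ * χ b ^ (q ^ 2 - 1) ∧
      χ c ^ (q ^ 2 - 1) = r₂ / r₁ ^ q * χ b ^ (q ^ 2 - 1) := by
  obtain ⟨⟨E1K, E1I, E1R⟩, ⟨E2K, E2I, E2R⟩⟩ := GlueDat.sections O hn G hP1 hP2 hφK hφ hr
  -- the three values have the same `n`-th power
  have hpw : D.Rd3 (φ ^ n * w) ((a ^ n : S) : LaurentSeries k) ((b ^ n : S) : LaurentSeries k)
      ((c ^ n : S) : LaurentSeries k) := by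
    have := (hr.pow n).mul hw
    simpa using this
  obtain ⟨p1, p2⟩ := hχ _ (D.FK.mul_mem (D.FK.pow_mem hφK n) hwK) hφ _ _ _ hpw
  rw [map_pow, map_pow] at p1 p2
  have ha : χ a ≠ 0 := by
    intro h
    rw [h, zero_pow hn.ne'] at p1
    exact pow_ne_zero n hb p1.symm
  have hc : χ c ≠ 0 := by
    intro h
    rw [h, zero_pow hn.ne'] at p2
    exact pow_ne_zero n hb p2
  have hr₁0 : r₁ ≠ 0 := by
    intro h
    have := G.hr₁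
    rw [h, zero_pow hn.ne'] at this
    exact zero_ne_one this
  -- the two relations
  have R1 : D.Rd3 (y₁ * D.P1 φ) ((a * b ^ (q - 1) : S) : LaurentSeries k)
      ((⟨HahnSeries.C s₁, hC s₁⟩ * (a * b ^ (q - 1)) : S) : LaurentSeries k)
      ((⟨HahnSeries.C r₁, hC r₁⟩ * c ^ q : S) : LaurentSeries k) := by
    simpa using E1R
  have R2 : D.Rd3 (y₂ * D.P2 φ) ((a ^ q : S) : LaurentSeries k)
      ((⟨HahnSeries.C s₂, hC s₂⟩ * (c * b ^ (q - 1)) : S) : LaurentSeries k)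
      ((⟨HahnSeries.C r₂, hC r₂⟩ * (c * b ^ (q - 1)) : S) : LaurentSeries k) := by
    simpa using E2R
  obtain ⟨u1, u2⟩ := hχ _ E1K E1I _ _ _ R1
  obtain ⟨w1, w2⟩ := hχ _ E2K E2I _ _ _ R2
  have hi : χ a * χ b ^ (q - 1) = r₁ * χ c ^ q := by
    have := u1.trans u2
    rwa [map_mul, map_pow, map_mul, map_pow, hχC] at this
  have hii : χ a ^ q = r₂ * (χ c * χ b ^ (q - 1)) := by
    have := w1.trans w2
    rwa [map_pow, map_mul, map_mul, map_pow, hχC] at this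
  exact arith (by omega) ha hb hc hr₁0 hi hii

/-- the correcting element `ζ ≡ (A, 1, B)`. -/
theorem exists_twist (B : D.Base) (hA : D.Approx) (A' B' : k) (hA' : A' ≠ 0) (hB' : B' ≠ 0) :
    ∃ z ∈ D.FK, z ≠ 0 ∧ D.Rd3 z (HahnSeries.C A') 1 (HahnSeries.C B') := by
  obtain ⟨a₁, ha₁, hR₁⟩ := B.constK A'
  obtain ⟨a₃, ha₃, hR₃⟩ := B.constK B'
  have hCA : (HahnSeries.C A' : LaurentSeries k) ≠ 0 := by
    simpa using hA'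
  have hCB : (HahnSeries.C B' : LaurentSeries k) ≠ 0 := by
    simpa using hB'
  have g₁0 : algebraMap L F a₁ ≠ 0 := (hR₁.u3 B hCA hCA hCA).ne_zero
  have g₃0 : algebraMap L F a₃ ≠ 0 := (hR₃.u3 B hCB hCB hCB).ne_zero
  obtain ⟨z, hz, hz0, h1, h2, h3⟩ := hA _ (B.KF a₁ ha₁) 1 D.FK.one_mem _ (B.KF a₃ ha₃) g₁0
    one_ne_zero g₃0
  refine ⟨z, hz, hz0, ?_, ?_, ?_⟩
  · have := (Rd.one.of_sub_lt B.redo h1).mul hR₁.1
    rwa [div_mul_cancel₀ _ g₁0, one_mul] at this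
  · have := Rd.one.of_sub_lt B.redm h2
    rwa [div_one] at this
  · have := (Rd.one.of_sub_lt B.redz h3).mul hR₃.2.2
    rwa [div_mul_cancel₀ _ g₃0, one_mul] at this

end Fermat.Agent.CAR.NRM
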