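import Fermat.Agent.CAR.NRM.Glue

/-!
# CAR / NRM / Glue2 : `GlueDat.values` with values in an arbitrary field `κ` (e.g. `B ⧸ P`) and an abstract copy `S` of the reduced ring.
-/

set_option autoImplicit false

noncomputable section

namespace Fermat.Agent.CAR.NRM

open Fermat.Agent.GAL.KL Fermat.Agent.GAL.KLC Fermat.Agent.TOR.T1

variable {L F k Γ₀ : Type*} [Field L] [Field F] [Algebra L F] [Field k]
  [LinearOrderedCommGroupWithZero Γ₀] {D : Dat L F k Γ₀}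

/-- **values at a glued point**, general form.  `ι : S → k((Q))` = the reduced ring `R'`, `cS : k → S` the constants,
`χ : S → κ` a point at which the three branches of the chart `t` are glued (`hχ`). -/
theorem GlueDat.valuesK {κ S : Type*} [Field κ] [CommRing S] {q : ℕ} (O : D.Ops q) (hq : 2 ≤ q)
    {n : ℕ} (hn : 0 < n) {w y₁ y₂ : F}
    {s₁ r₁ s₂ r₂ : k} (G : D.GlueDat q n w y₁ y₂ s₁ r₁ s₂ r₂) (hw : D.Rd3 w 1 1 1) (hwK : w ∈ D.FK)
    {t : F}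
    (hP1 : ∀ z, IsInt L t z → IsInt L t (D.P1 z)) (hP2 : ∀ z, IsInt L t z → IsInt L t (D.P2 z))
    (ι : S →+* LaurentSeries k) (cS : k →+* S) (hc : ∀ r : k, ι (cS r) = HahnSeries.C r)
    (χ : S →+* κ)
    (hχ : ∀ z ∈ D.FK, IsInt L t z → ∀ a b c : S, D.Rd3 z (ι a) (ι b) (ι c) → χ a = χ b ∧ χ b = χ c)
    {φ : F} (hφK : φ ∈ D.FK) (hφ : IsInt L t (φ ^ n * w)) (a b c : S)
    (hr : D.Rd3 φ (ι a) (ι b) (ι c)) (hb : χ b ≠ 0) :
    χ a ^ (q ^ 2 - 1) = χ (cS (r₂ ^ q / r₁)) * χ b ^ (q ^ 2 - 1) ∧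
      χ c ^ (q ^ 2 - 1) = χ (cS (r₂ / r₁ ^ q)) * χ b ^ (q ^ 2 - 1) := by
  obtain ⟨⟨E1K, E1I, E1R⟩, ⟨E2K, E2I, E2R⟩⟩ := GlueDat.sections O hn G hP1 hP2 hφK hφ hr
  have hpw : D.Rd3 (φ ^ n * w) (ι (a ^ n)) (ι (b ^ n)) (ι (c ^ n)) := by
    have := (hr.pow n).mul hw
    simpa using this
  obtain ⟨p1, p2⟩ := hχ _ (D.FK.mul_mem (D.FK.pow_mem hφK n) hwK) hφ _ _ _ hpw
  rw [map_pow, map_pow] at p1 p2
  have ha : χ a ≠ 0 := by
    intro h
    rw [h, zero_pow hn.ne'] at p1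
    exact pow_ne_zero n hb p1.symm
  have hc' : χ c ≠ 0 := by
    intro h
    rw [h, zero_pow hn.ne'] at p2
    exact pow_ne_zero n hb p2
  have hr₁0 : r₁ ≠ 0 := by
    intro h
    have := G.hr₁
    rw [h, zero_pow hn.ne'] at this
    exact zero_ne_one this
  let f : k →+* κ := χ.comp cS
  have hf : ∀ r, χ (cS r) = f r := fun _ => rfl
  have R1 : D.Rd3 (y₁ * D.P1 φ) (ι (a * b ^ (q - 1))) (ι (cS s₁ * (a * b ^ (q - 1))))
      (ι (cS r₁ * c ^ q)) := by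
    simpa [hc] using E1R
  have R2 : D.Rd3 (y₂ * D.P2 φ) (ι (a ^ q)) (ι (cS s₂ * (c * b ^ (q - 1))))
      (ι (cS r₂ * (c * b ^ (q - 1)))) := by
    simpa [hc] using E2R
  obtain ⟨u1, u2⟩ := hχ _ E1K E1I _ _ _ R1
  obtain ⟨w1, w2⟩ := hχ _ E2K E2I _ _ _ R2
  have hi : χ a * χ b ^ (q - 1) = f r₁ * χ c ^ q := by
    have := u1.trans u2
    rwa [map_mul, map_pow, map_mul, map_pow, hf] at this
  have hii : χ a ^ q = f r₂ * (χ c * χ b ^ (q - 1)) := by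
    have := w1.trans w2
    rwa [map_pow, map_mul, map_mul, map_pow, hf] at this
  have := arith (by omega) ha hb hc' ((map_ne_zero f).2 hr₁0) hi hii
  rw [hf, hf, map_div₀, map_div₀, map_pow, map_pow]
  exact this

end Fermat.Agent.CAR.NRM
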