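import Fermat.Agent.CAR.NRM.Unit

/-!
# CAR / NRM / Red (package NRM-R): the three reductions become `n`-th powers after multiplication by `q - 1`

`h ∈ F_K` a unit on the three branches, `red h = (a, b, c)`, `P1 h ≡ Y₁^n`, `P2 h ≡ Y₂^n` (`nearPow_of_unit`; `P_j h` is a unit by `vP*`).
* branch `0`: `red_z (P1 h) = c^q`, so `c^q = red_z(Y₁)^n`; Bezout `u q + v n = 1` (`u v : ℤ`): `c = (red_z(Y₁)^u c^v)^n`: `g_z := Y₁^u h^v`.
* branch `∞`: `red_o (P2 h) = a^q`: `g_o := Y₂^u h^v`, `a = red_o(g_o)^n`.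
* branch `mid`: `red_m (P1 h) = a b^(q-1) = red_m(Y₁)^n`; `Transfer` gives `g♯ ∈ F_K` with `red_m g♯ = red_o g_o`; `g_m := Y₁ / g♯`, `b^(q-1) = red_m(g_m)^n`.
* `Approx` : `z ≈ (g_o^-(q-1), g_m^-1, g_z^-(q-1))`.
-/

set_option autoImplicit false

noncomputable section

namespace Fermat.Agent.CAR.NRM

open Fermat.Agent.GAL.KL Fermat.Agent.GAL.KLC Fermat.Agent.TOR.T1

variable {L F k Γ₀ : Type*} [Field L] [Field F] [Algebra L F] [Field k]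
  [LinearOrderedCommGroupWithZero Γ₀] {D : Dat L F k Γ₀}

theorem red_rd_zpow {v : Valuation F Γ₀} {ρ : v.integer →+* LaurentSeries k}
    (hρ : IsRed L v ρ) {z : F} {φ : LaurentSeries k} (h : Rd ρ z φ) (hφ : φ ≠ 0) (u : ℤ) :
    Rd ρ (z ^ u) (φ ^ u) := by
  cases u with
  | ofNat m => simpa using h.pow m
  | negSucc m =>
    rw [zpow_negSucc, zpow_negSucc]
    exact (h.pow (m + 1)).inv hρ (pow_ne_zero _ hφ)

theorem red_ne_zero_of_v {v : Valuation F Γ₀} {z : F} (h : v z = 1) : z ≠ 0 := by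
  rintro rfl
  rw [map_zero] at h
  exact zero_ne_one h

/-- Bezout step, for one valuation. -/
theorem exists_root_of_coprime {v : Valuation F Γ₀} {ρ : v.integer →+* LaurentSeries k}
    (hρ : IsRed L v ρ) (S : Subfield F) {q n : ℕ} (hqn : Nat.Coprime q n) {h Y : F} (hh : h ∈ S)
    (hY : Y ∈ S) (vh : v h = 1) (vY : v Y = 1) (hr : Rd ρ (h ^ q / Y ^ n) 1) :
    ∃ g ∈ S, v g = 1 ∧ Rd ρ (h / g ^ n) 1 := by
  have hh0 : h ≠ 0 := red_ne_zero_of_v vh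
  have hY0 : Y ≠ 0 := red_ne_zero_of_v vY
  have hbez : (q : ℤ) * Nat.gcdA q n + (n : ℤ) * Nat.gcdB q n = 1 := by
    have := Nat.gcd_eq_gcd_ab q n
    rw [hqn.gcd_eq_one] at this
    exact_mod_cast this.symm
  set u := Nat.gcdA q n
  set w := Nat.gcdB q n
  refine ⟨Y ^ u * h ^ w, S.mul_mem (S.zpow_mem hY u) (S.zpow_mem hh w), ?_, ?_⟩
  · rw [map_mul, map_zpow₀, map_zpow₀, vh, vY, one_zpow, one_zpow, one_mul]
  · have h1 := red_rd_zpow hρ hr one_ne_zero u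
    rw [one_zpow] at h1
    have h2 : h / (Y ^ u * h ^ w) ^ n = (h ^ q / Y ^ n) ^ u := by
      have h3 : h = h ^ ((q : ℤ) * u) * h ^ ((n : ℤ) * w) := by
        rw [← zpow_add₀ hh0, hbez, zpow_one]
      have h4 : (Y ^ u * h ^ w) ^ n = Y ^ ((n : ℤ) * u) * h ^ ((n : ℤ) * w) := by
        rw [mul_pow, ← zpow_natCast, ← zpow_natCast, ← zpow_mul, ← zpow_mul, mul_comm u,
          mul_comm w]
      have h5 : (h ^ q / Y ^ n) ^ u = h ^ ((q : ℤ) * u) / Y ^ ((n : ℤ) * u) := by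
        rw [div_zpow, ← zpow_natCast, ← zpow_natCast, ← zpow_mul, ← zpow_mul]
      rw [h4, h5]
      have h6 : h ^ ((n : ℤ) * w) ≠ 0 := zpow_ne_zero _ hh0
      have h7 : Y ^ ((n : ℤ) * u) ≠ 0 := zpow_ne_zero _ hY0
      rw [div_eq_div_iff (mul_ne_zero h7 h6) h7]
      conv_lhs => rw [h3]
      ring
    rw [h2]
    exact h1

/-- Bezout step with the operator `P`. -/
theorem red_root {v : Valuation F Γ₀} {ρ : v.integer →+* LaurentSeries k}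
    (hρ : IsRed L v ρ) (S : Subfield F) {q n : ℕ} (hqn : Nat.Coprime q n) {h Y Ph : F}
    {c : LaurentSeries k} (hc : c ≠ 0) (hh : h ∈ S) (hY : Y ∈ S) (vY : v Y = 1) (rh : Rd ρ h c)
    (rP : Rd ρ Ph (c ^ q)) (rY : Rd ρ (Ph / Y ^ n) 1) :
    ∃ g ∈ S, v g = 1 ∧ Rd ρ (h / g ^ n) 1 := by
  have hcq : c ^ q ≠ 0 := pow_ne_zero _ hc
  have hP0 : Ph ≠ 0 := red_ne_zero_of_v (rP.v_eq_one hρ hcq)
  refine exists_root_of_coprime hρ S hqn hh hY (rh.v_eq_one hρ hc) vY ?_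
  have h1 := ((rh.pow q).div hρ rP hcq).mul rY
  rw [div_self hcq, one_mul] at h1
  have h2 : h ^ q / Ph * (Ph / Y ^ n) = h ^ q / Y ^ n := by
    field_simp
  rwa [h2] at h1

/-- the final computation on one branch. -/
theorem red_branch {v : Valuation F Γ₀} {ρ : v.integer →+* LaurentSeries k}
    (hρ : IsRed L v ρ) {h g z : F} (hg : g ≠ 0) (N n : ℕ) (h1 : Rd ρ (h / g ^ n) 1)
    (h2 : v (z / (g ^ N)⁻¹ - 1) < 1) : Rd ρ (h ^ N * z ^ n) 1 := by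
  have h3 : Rd ρ (z / (g ^ N)⁻¹) 1 := Rd.one.of_sub_lt hρ h2
  have h4 := (h1.pow N).mul (h3.pow n)
  rw [one_pow, one_pow, one_mul] at h4
  have h5 : (h / g ^ n) ^ N * (z / (g ^ N)⁻¹) ^ n = h ^ N * z ^ n := by
    have h6 : (g ^ n) ^ N ≠ 0 := pow_ne_zero _ (pow_ne_zero _ hg)
    rw [div_inv_eq_mul, div_pow, mul_pow, div_mul_eq_mul_div, div_eq_iff h6, ← pow_mul, ← pow_mul,
      mul_comm N n]
    ring
  rwa [h5] at h4

theorem red [IsAlgClosed k] (B : D.Base) {q : ℕ} (O : D.Ops q) (Dc : D.Disc q) (hA : D.Approx)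
    (hT : D.Transfer) (hq : 2 ≤ q) {n : ℕ} (hn : 0 < n) (hqn : Nat.Coprime q n) {h : F}
    (hK : h ∈ D.FK) (hU : D.U3 h) (h1 : D.NP n D.P1 h) (h2 : D.NP n D.P2 h) :
    ∃ z ∈ D.FK, z ≠ 0 ∧ D.Rd3 (h ^ (q - 1) * z ^ n) 1 1 1 := by
  obtain ⟨a, b, c, ha, hb, hc, hR⟩ := hU.exists_rd3 B
  have hU1 : D.U3 (D.P1 h) :=
    ⟨by rw [O.vP1o h hK, hU.1, hU.2.1, one_pow, one_mul],
      by rw [O.vP1m h hK, hU.1, hU.2.1, one_pow, one_mul], by rw [O.vP1z h hK, hU.2.2, one_pow]⟩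
  have hU2 : D.U3 (D.P2 h) :=
    ⟨by rw [O.vP2o h hK, hU.1, one_pow], by rw [O.vP2m h hK, hU.2.2, hU.2.1, one_pow, one_mul],
      by rw [O.vP2z h hK, hU.2.2, hU.2.1, one_pow, one_mul]⟩
  obtain ⟨Y₁, hY₁, uY₁, rY₁⟩ := nearPow_of_unit B Dc hn hU1 h1
  obtain ⟨Y₂, hY₂, uY₂, rY₂⟩ := nearPow_of_unit B Dc hn hU2 h2
  have rP1 := O.rP1 h hK a b c hR
  have rP2 := O.rP2 h hK a b c hR
  -- the branches `0` and `∞`
  obtain ⟨gz, hgz, vgz, rgz⟩ :=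
    red_root B.redz D.FK hqn hc hK hY₁ uY₁.2.2 hR.2.2 rP1.2.2 rY₁.2.2
  obtain ⟨go, hgo, vgo, rgo⟩ := red_root B.redo D.FK hqn ha hK hY₂ uY₂.1 hR.1 rP2.1 rY₂.1
  -- the middle branch
  obtain ⟨φ, hφ⟩ := exists_rd (ρ := D.ρo) vgo.le
  have hφ0 : φ ≠ 0 := by
    rintro rfl
    exact absurd ((rd_zero_iff B.redo).1 hφ) (by rw [vgo]; exact lt_irrefl _)
  have haφ : a = φ ^ n := by
    have h3 := (hR.1.div B.redo (hφ.pow n) (pow_ne_zero _ hφ0)).unique rgo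
    exact (div_eq_one_iff_eq (pow_ne_zero _ hφ0)).1 h3
  obtain ⟨gs, hgs, rgs⟩ := hT go hgo φ hφ
  obtain ⟨η, hη⟩ := exists_rd (ρ := D.ρm) uY₁.2.1.le
  have hη0 : η ≠ 0 := by
    rintro rfl
    exact absurd ((rd_zero_iff B.redm).1 hη) (by rw [uY₁.2.1]; exact lt_irrefl _)
  have habη : a * b ^ (q - 1) = η ^ n := by
    have h3 := (rP1.2.1.div B.redm (hη.pow n) (pow_ne_zero _ hη0)).unique rY₁.2.1
    exact (div_eq_one_iff_eq (pow_ne_zero _ hη0)).1 h3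
  have rgm : Rd D.ρm (Y₁ / gs) (η / φ) := hη.div B.redm rgs hφ0
  have hηφ : η / φ ≠ 0 := div_ne_zero hη0 hφ0
  have hgm0 : Y₁ / gs ≠ 0 := red_ne_zero_of_v (rgm.v_eq_one B.redm hηφ)
  have rm : Rd D.ρm (h ^ (q - 1) / (Y₁ / gs) ^ n) 1 := by
    have h3 := (hR.2.1.pow (q - 1)).div B.redm (rgm.pow n) (pow_ne_zero _ hηφ)
    have h4 : b ^ (q - 1) / (η / φ) ^ n = 1 := by
      rw [div_pow, ← habη, ← haφ]
      field_simp
    rwa [h4] at h3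
  have hgo0 : go ≠ 0 := red_ne_zero_of_v vgo
  have hgz0 : gz ≠ 0 := red_ne_zero_of_v vgz
  obtain ⟨z, hz, hz0, zo, zm, zz⟩ := hA ((go ^ (q - 1))⁻¹) (D.FK.inv_mem (D.FK.pow_mem hgo _))
    (((Y₁ / gs) ^ 1)⁻¹) (D.FK.inv_mem (D.FK.pow_mem (D.FK.div_mem hY₁ hgs) _))
    ((gz ^ (q - 1))⁻¹) (D.FK.inv_mem (D.FK.pow_mem hgz _))
    (inv_ne_zero (pow_ne_zero _ hgo0)) (inv_ne_zero (pow_ne_zero _ hgm0))
    (inv_ne_zero (pow_ne_zero _ hgz0))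
  refine ⟨z, hz, hz0, red_branch B.redo hgo0 (q - 1) n rgo zo, ?_,
    red_branch B.redz hgz0 (q - 1) n rgz zz⟩
  have h3 := red_branch B.redm hgm0 1 n rm zm
  rwa [pow_one] at h3

end Fermat.Agent.CAR.NRM
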