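import Fermat.Agent.CAR.NRM.Basic

/-!
# CAR / NRM / Vert (package NRM-V): the vertical valuations are `≡ 0 mod n` after multiplication by `q + 1`

`ϖ = |q|`.  Write `vo h = ϖ^a`, `vm h^(q-1) = ϖ^b`, `vz h = ϖ^c` (`Disc`).
`P1 h = κ₁ y₁^n`:  `vo`: `a + b = e₁ + n f₁`,  `vz`: `q c = e₁ + n g₁`   (`vP1o`, `vP1z`, `dK`, `dO`, `dz`), so `a + b ≡ q c (n)`.
`P2 h = κ₂ y₂^n`:  `vo`: `q a = e₂ + n f₂`,  `vz`: `c + b = e₂ + n g₂`, so `q a ≡ b + c (n)`.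
Hence `(q+1)(a - c) ≡ 0` and `(q+1)(b - (q-1) a) ≡ (q+1) q (c - a) ≡ 0 (n)`.
Take `e := -(q+1) a`, and `z` with `vo z = 1`, `vm z^(q-1) = ϖ^β`, `vz z = ϖ^γ`, `n β = -(q+1)(b-(q-1)a)`, `n γ = -(q+1)(c-a)`:
`z` is given by `Approx` applied to `(1, δ^β, q^γ)` (`δ` = `Disc.um`).   `x^(q-1) = 1 → x = 1` in `Γ₀` (linear order).
(`zpow` injectivity: `ϖ < 1`, `ϖ ≠ 0`.)
-/

set_option autoImplicit false

noncomputable section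

namespace Fermat.Agent.CAR.NRM

open Fermat.Agent.GAL.KL Fermat.Agent.GAL.KLC Fermat.Agent.TOR.T1

variable {L F k Γ₀ : Type*} [Field L] [Field F] [Algebra L F] [Field k]
  [LinearOrderedCommGroupWithZero Γ₀] {D : Dat L F k Γ₀}

/-- `v (z / g - 1) < 1` forces `v z = v g`. -/
theorem vert_val_eq (v : Valuation F Γ₀) {z g : F} (hg : g ≠ 0) (h : v (z / g - 1) < 1) :
    v z = v g := by
  have h1 : v (z / g) = 1 := by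
    have := Valuation.map_one_add_of_lt (v := v) h
    rwa [add_sub_cancel] at this
  rw [map_div₀, div_eq_one_iff_eq ((Valuation.ne_zero_iff v).mpr hg)] at h1
  exact h1

/-- one norm relation: if `P h = κ y ^ n`, `v (P h) = ϖ ^ A`, `v' (P h) = ϖ ^ A'` then `n ∣ A - A'`. -/
theorem vert_rel {ϖ : Γ₀} (h0 : ϖ ≠ 0) (h1 : ϖ < 1) {n : ℕ} {e f g A A' : ℤ}
    (hA : ϖ ^ A = ϖ ^ e * (ϖ ^ f) ^ n) (hA' : ϖ ^ A' = ϖ ^ e * (ϖ ^ g) ^ n) :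
    A - A' = n * (f - g) := by
  have inj := zpow_right_injective₀ (zero_lt_iff.mpr h0) h1.ne
  rw [← zpow_natCast, ← zpow_mul, ← zpow_add₀ h0] at hA hA'
  have e1 := inj hA
  have e2 := inj hA'
  rw [e1, e2]
  ring

theorem vert (B : D.Base) {q : ℕ} (O : D.Ops q) (Dc : D.Disc q) (hA : D.Approx) (hq : 2 ≤ q)
    {n : ℕ} (hn : 0 < n) {h : F} (hK : h ∈ D.FK) (h0 : h ≠ 0) (h1 : D.NP n D.P1 h)
    (h2 : D.NP n D.P2 h) :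
    ∃ e : ℤ, ∃ z ∈ D.FK, z ≠ 0 ∧ D.U3 (h ^ (q + 1) * algebraMap L F ((q : L) ^ e) * z ^ n) := by
  classical
  set ϖ : Γ₀ := D.vL (q : L) with hϖ
  have hϖ0 : ϖ ≠ 0 := Dc.q_ne
  have hϖ1 : ϖ < 1 := Dc.q_lt
  obtain ⟨a, ha⟩ := Dc.dO h hK h0
  obtain ⟨b, hb⟩ := Dc.dm h hK h0
  obtain ⟨c, hc⟩ := Dc.dz h hK h0
  obtain ⟨κ₁, hκ₁, hκ₁0, y₁, hy₁, hP1⟩ := h1
  obtain ⟨κ₂, hκ₂, hκ₂0, y₂, hy₂, hP2⟩ := h2
  have hPne : ∀ P : F →* F, P h ≠ 0 := fun P => by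
    have hu : IsUnit (P h) := (isUnit_iff_ne_zero.mpr h0).map P
    exact hu.ne_zero
  have hy₁0 : y₁ ≠ 0 := by
    rintro rfl
    apply hPne D.P1
    rw [hP1, zero_pow hn.ne', mul_zero]
  have hy₂0 : y₂ ≠ 0 := by
    rintro rfl
    apply hPne D.P2
    rw [hP2, zero_pow hn.ne', mul_zero]
  obtain ⟨e₁, he₁⟩ := Dc.dK κ₁ hκ₁ hκ₁0
  obtain ⟨e₂, he₂⟩ := Dc.dK κ₂ hκ₂ hκ₂0
  obtain ⟨f₁, hf₁⟩ := Dc.dO y₁ hy₁ hy₁0
  obtain ⟨g₁, hg₁⟩ := Dc.dz y₁ hy₁ hy₁0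
  obtain ⟨f₂, hf₂⟩ := Dc.dO y₂ hy₂ hy₂0
  obtain ⟨g₂, hg₂⟩ := Dc.dz y₂ hy₂ hy₂0
  have hpow : ∀ (x : ℤ) (m : ℕ), (ϖ ^ x) ^ m = ϖ ^ ((m : ℤ) * x) := by
    intro x m
    rw [← zpow_natCast, ← zpow_mul, mul_comm]
  -- the four relations
  have r1 : ϖ ^ (a + b) = ϖ ^ e₁ * (ϖ ^ f₁) ^ n := by
    have := O.vP1o h hK
    rw [hP1, map_mul, map_pow, B.vLo, he₁, hf₁, ha, hb, ← zpow_add₀ hϖ0] at this
    exact this.symm
  have r2 : ϖ ^ ((q : ℤ) * c) = ϖ ^ e₁ * (ϖ ^ g₁) ^ n := by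
    have := O.vP1z h hK
    rw [hP1, map_mul, map_pow, B.vLz, he₁, hg₁, hc, hpow c q] at this
    exact this.symm
  have r3 : ϖ ^ ((q : ℤ) * a) = ϖ ^ e₂ * (ϖ ^ f₂) ^ n := by
    have := O.vP2o h hK
    rw [hP2, map_mul, map_pow, B.vLo, he₂, hf₂, ha, hpow a q] at this
    exact this.symm
  have r4 : ϖ ^ (c + b) = ϖ ^ e₂ * (ϖ ^ g₂) ^ n := by
    have := O.vP2z h hK
    rw [hP2, map_mul, map_pow, B.vLz, he₂, hg₂, hc, hb, ← zpow_add₀ hϖ0] at this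
    exact this.symm
  have R1 : (a + b) - (q : ℤ) * c = n * (f₁ - g₁) := vert_rel hϖ0 hϖ1 r1 r2
  have R2 : (q : ℤ) * a - (c + b) = n * (f₂ - g₂) := vert_rel hϖ0 hϖ1 r3 r4
  set t₁ : ℤ := f₁ - g₁ with ht₁
  set t₂ : ℤ := f₂ - g₂ with ht₂
  set γ : ℤ := t₁ + t₂ with hγ
  set β : ℤ := (q : ℤ) * γ - ((q : ℤ) + 1) * t₁ with hβ
  obtain ⟨δ, hδK, hδ0, hδ⟩ := Dc.um
  have hqF0 : (q : F) ≠ 0 := by
    intro h'
    apply hϖ0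
    have := B.vLo (q : L)
    rw [map_natCast, h', map_zero] at this
    exact this.symm
  have hqK : (q : F) ∈ D.FK := natCast_mem D.FK q
  obtain ⟨z, hzK, hz0, hzo, hzm, hzz⟩ := hA 1 D.FK.one_mem (δ ^ β) (D.FK.zpow_mem hδK β)
    ((q : F) ^ γ) (D.FK.zpow_mem hqK γ) one_ne_zero (zpow_ne_zero _ hδ0) (zpow_ne_zero _ hqF0)
  have vzo : D.vo z = 1 := by rw [vert_val_eq D.vo one_ne_zero hzo, map_one]
  have vzm : D.vm z ^ (q - 1) = ϖ ^ β := by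
    rw [vert_val_eq D.vm (zpow_ne_zero _ hδ0) hzm, map_zpow₀, ← zpow_natCast, ← zpow_mul,
      mul_comm, zpow_mul, zpow_natCast, hδ]
  have vqz : D.vz (q : F) = ϖ := by
    have := B.vLz (q : L)
    rwa [map_natCast] at this
  have vzz : D.vz z = ϖ ^ γ := by
    rw [vert_val_eq D.vz (zpow_ne_zero _ hqF0) hzz, map_zpow₀, vqz]
  refine ⟨-(((q : ℤ) + 1) * a), z, hzK, hz0, ?_, ?_, ?_⟩
  · rw [map_mul, map_mul, map_pow, map_pow, B.vLo, map_zpow₀, ← hϖ, ha, vzo, one_pow, mul_one,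
      ← zpow_natCast, ← zpow_mul, ← zpow_add₀ hϖ0]
    convert zpow_zero ϖ using 2
    push_cast
    ring
  · have hq1 : q - 1 ≠ 0 := by omega
    have hq1' : ((q - 1 : ℕ) : ℤ) = (q : ℤ) - 1 := by
      rw [Nat.cast_sub (by omega)]; simp
    apply (pow_eq_one_iff_left hq1).mp
    rw [map_mul, map_mul, map_pow, map_pow, B.vLm, map_zpow₀, ← hϖ, mul_pow, mul_pow,
      ← pow_mul, ← pow_mul, mul_comm (q + 1), mul_comm n, pow_mul, pow_mul, hb, vzm,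
      ← zpow_natCast, ← zpow_natCast, ← zpow_natCast, ← zpow_mul, ← zpow_mul, ← zpow_mul,
      ← zpow_add₀ hϖ0, ← zpow_add₀ hϖ0]
    convert zpow_zero ϖ using 2
    rw [hq1']
    push_cast
    have E : b = (q : ℤ) * c - a + n * t₁ := by linarith
    have E2 : ((q : ℤ) + 1) * (a - c) = n * γ := by rw [hγ]; linarith
    rw [hβ, E]
    linear_combination (-(q : ℤ)) * E2
  · rw [map_mul, map_mul, map_pow, map_pow, B.vLz, map_zpow₀, ← hϖ, hc, vzz,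
      ← zpow_natCast, ← zpow_natCast, ← zpow_mul, ← zpow_mul, ← zpow_add₀ hϖ0, ← zpow_add₀ hϖ0]
    convert zpow_zero ϖ using 2
    push_cast
    have E2 : ((q : ℤ) + 1) * (a - c) = n * γ := by rw [hγ]; linarith
    linear_combination (-1 : ℤ) * E2

end Fermat.Agent.CAR.NRM
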