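import Fermat.Agent.CAR.NRM.Approx
import Fermat.Agent.CAR.NRM.Vert
import Fermat.Agent.CAR.NRM.Red
import Fermat.Agent.CAR.NRM.Glue

/-!
# CAR / NRM / Main : the export of block [NRM]

`h ∈ F_K^×` with `P1 h`, `P2 h ∈ K^× (F_K^×)^n`.  Then
* `exists_w` : `w := h^((q+1)(q-1)) * a * z^n ≡ 1` on the three branches for suitable `a ∈ K^×`, `z ∈ F_K^×`; the norm conditions persist;
* `main` : moreover there are constants `A, B ∈ μ_n(k)` and `ζ ∈ F_K`, `ζ ≡ (A, 1, B)`, such that at every point `χ` of the chart `t` at which the three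
  branches are glued, every section `φ ∈ F_K` of `Lam_t(w)` (`φ^n w ∈ B_t`) with `χ(red_m φ) ≠ 0` has values `(A s, s, B s)` after raising to the power `q² - 1`.
  So `φ^(q²-1) / ζ` is a section of `Lam_t(w'')`, `w'' := w^(q²-1) ζ^n ≡ 1`, with three EQUAL values at `χ`.
-/

set_option autoImplicit false

noncomputable section

namespace Fermat.Agent.CAR.NRM

open Fermat.Agent.GAL.KL Fermat.Agent.GAL.KLC Fermat.Agent.TOR.T1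

variable {L F k Γ₀ : Type*} [Field L] [Field F] [Algebra L F] [Field k]
  [LinearOrderedCommGroupWithZero Γ₀] {D : Dat L F k Γ₀}

/-- all hypotheses of the block. -/
structure Dat.All (D : Dat L F k Γ₀) (q : ℕ) : Prop where
  base : D.Base
  ops : D.Ops q
  disc : D.Disc q
  idem : D.Idem
  transfer : D.Transfer

theorem exists_w [IsAlgClosed k] {q : ℕ} (H : D.All q) (hq : 2 ≤ q) {n : ℕ} (hn : 0 < n)
    (hqn : Nat.Coprime q n) {h : F} (hK : h ∈ D.FK) (h0 : h ≠ 0) (h1 : D.NP n D.P1 h)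
    (h2 : D.NP n D.P2 h) :
    ∃ a ∈ D.KK, a ≠ 0 ∧ ∃ z ∈ D.FK, z ≠ 0 ∧
      h ^ ((q + 1) * (q - 1)) * algebraMap L F a * z ^ n ∈ D.FK ∧
      D.Rd3 (h ^ ((q + 1) * (q - 1)) * algebraMap L F a * z ^ n) 1 1 1 ∧
      D.NP n D.P1 (h ^ ((q + 1) * (q - 1)) * algebraMap L F a * z ^ n) ∧
      D.NP n D.P2 (h ^ ((q + 1) * (q - 1)) * algebraMap L F a * z ^ n) := by
  have hA := approx_of_idem H.idem
  have hq0 : (q : L) ≠ 0 := by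
    intro h
    apply H.disc.q_ne
    rw [h, map_zero]
  obtain ⟨e, z₁, hz₁, hz₁0, hU⟩ := vert H.base H.ops H.disc hA hq hn hK h0 h1 h2
  have hqe : (q : L) ^ e ∈ D.KK := D.KK.zpow_mem (natCast_mem D.KK q) e
  have hqe0 : (q : L) ^ e ≠ 0 := zpow_ne_zero _ hq0
  set h₂ := h ^ (q + 1) * algebraMap L F ((q : L) ^ e) * z₁ ^ n with hh₂
  have hh₂K : h₂ ∈ D.FK :=
    D.FK.mul_mem (D.FK.mul_mem (D.FK.pow_mem hK _) (H.base.KF _ hqe)) (D.FK.pow_mem hz₁ _)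
  have n1 : D.NP n D.P1 h₂ := Dat.NP.combine H.ops.P1K H.ops.P1c h1 (q + 1) hqe hqe0 hz₁
  have n2 : D.NP n D.P2 h₂ := Dat.NP.combine H.ops.P2K H.ops.P2c h2 (q + 1) hqe hqe0 hz₁
  obtain ⟨z₂, hz₂, hz₂0, hr⟩ := red H.base H.ops H.disc hA H.transfer hq hn hqn hh₂K hU n1 n2
  have key : h ^ ((q + 1) * (q - 1)) * algebraMap L F (((q : L) ^ e) ^ (q - 1)) *
      (z₁ ^ (q - 1) * z₂) ^ n = h₂ ^ (q - 1) * z₂ ^ n := by
    rw [hh₂, map_pow]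
    ring
  have key' : h₂ ^ (q - 1) * z₂ ^ n = h₂ ^ (q - 1) * algebraMap L F 1 * z₂ ^ n := by
    rw [map_one, mul_one]
  refine ⟨((q : L) ^ e) ^ (q - 1), D.KK.pow_mem hqe _, pow_ne_zero _ hqe0, z₁ ^ (q - 1) * z₂,
    D.FK.mul_mem (D.FK.pow_mem hz₁ _) hz₂, mul_ne_zero (pow_ne_zero _ hz₁0) hz₂0, ?_, ?_, ?_, ?_⟩
  · rw [key]
    exact D.FK.mul_mem (D.FK.pow_mem hh₂K _) (D.FK.pow_mem hz₂ _)
  · rw [key]; exact hr
  · rw [key, key']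
    exact Dat.NP.combine H.ops.P1K H.ops.P1c n1 (q - 1) D.KK.one_mem one_ne_zero hz₂
  · rw [key, key']
    exact Dat.NP.combine H.ops.P2K H.ops.P2c n2 (q - 1) D.KK.one_mem one_ne_zero hz₂

/-- the property of `(w, ζ, A, B)` exported to [COND]. -/
structure Dat.Out (D : Dat L F k Γ₀) (q n : ℕ) (w ζ : F) (A B : k) : Prop where
  wK : w ∈ D.FK
  rw : D.Rd3 w 1 1 1
  ζK : ζ ∈ D.FK
  ζ0 : ζ ≠ 0
  hA : A ^ n = 1
  hB : B ^ n = 1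
  rζ : D.Rd3 ζ (HahnSeries.C A) 1 (HahnSeries.C B)
  rw'' : D.Rd3 (w ^ (q ^ 2 - 1) * ζ ^ n) 1 1 1
  values : ∀ t : F, (∀ z, IsInt L t z → IsInt L t (D.P1 z)) → (∀ z, IsInt L t z → IsInt L t (D.P2 z)) →
    ∀ (S : Subring (LaurentSeries k)) (hC : ∀ r : k, HahnSeries.C r ∈ S) (χ : S →+* k),
    (∀ r : k, χ ⟨HahnSeries.C r, hC r⟩ = r) →
    (∀ z ∈ D.FK, IsInt L t z → ∀ a b c : S, D.Rd3 z a b c → χ a = χ b ∧ χ b = χ c) →
    ∀ φ ∈ D.FK, IsInt L t (φ ^ n * w) → ∀ a b c : S, D.Rd3 φ a b c → χ b ≠ 0 →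
      χ a ^ (q ^ 2 - 1) = A * χ b ^ (q ^ 2 - 1) ∧ χ c ^ (q ^ 2 - 1) = B * χ b ^ (q ^ 2 - 1)

theorem exists_out [IsAlgClosed k] {q : ℕ} (H : D.All q) (hq : 2 ≤ q) {n : ℕ} (hn : 0 < n)
    {w : F} (hK : w ∈ D.FK) (hw : D.Rd3 w 1 1 1) (h1 : D.NP n D.P1 w) (h2 : D.NP n D.P2 w) :
    ∃ (ζ : F) (A B : k), D.Out q n w ζ A B := by
  have hAp := approx_of_idem H.idem
  obtain ⟨y₁, y₂, s₁, r₁, s₂, r₂, G⟩ := exists_glueDat H.base H.ops H.disc hn hK hw h1 h2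
  have hr₁0 : r₁ ≠ 0 := by
    intro h
    have := G.hr₁
    rw [h, zero_pow hn.ne'] at this
    exact zero_ne_one this
  have hr₂0 : r₂ ≠ 0 := by
    intro h
    have := G.hr₂
    rw [h, zero_pow hn.ne'] at this
    exact zero_ne_one this
  have hA : (r₂ ^ q / r₁) ^ n = 1 := by
    rw [div_pow, ← pow_mul, mul_comm, pow_mul, G.hr₂, G.hr₁, one_pow, div_one]
  have hB : (r₂ / r₁ ^ q) ^ n = 1 := by
    rw [div_pow, ← pow_mul, mul_comm q n, pow_mul, G.hr₂, G.hr₁, one_pow, div_one]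
  obtain ⟨ζ, hζK, hζ0, hζ⟩ := exists_twist H.base hAp (r₂ ^ q / r₁) (r₂ / r₁ ^ q)
    (div_ne_zero (pow_ne_zero _ hr₂0) hr₁0) (div_ne_zero hr₂0 (pow_ne_zero _ hr₁0))
  refine ⟨ζ, r₂ ^ q / r₁, r₂ / r₁ ^ q, hK, hw, hζK, hζ0, hA, hB, hζ, ?_, ?_⟩
  · have h3 := (hw.pow (q ^ 2 - 1)).mul (hζ.pow n)
    rw [← map_pow, ← map_pow, hA, hB] at h3
    simpa using h3
  · intro t hP1 hP2 S hC χ hχC hχ φ hφK hφ a b c hr hb
    exact GlueDat.values H.ops hq hn G hw hK hP1 hP2 S hC χ hχC hχ hφK hφ a b c hr hb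

/-- **Export of [NRM].** -/
theorem main [IsAlgClosed k] {q : ℕ} (H : D.All q) (hq : 2 ≤ q) {n : ℕ} (hn : 0 < n)
    (hqn : Nat.Coprime q n) {h : F} (hK : h ∈ D.FK) (h0 : h ≠ 0) (h1 : D.NP n D.P1 h)
    (h2 : D.NP n D.P2 h) :
    ∃ a ∈ D.KK, a ≠ 0 ∧ ∃ z ∈ D.FK, z ≠ 0 ∧ ∃ (ζ : F) (A B : k),
      D.Out q n (h ^ ((q + 1) * (q - 1)) * algebraMap L F a * z ^ n) ζ A B := by
  obtain ⟨a, ha, ha0, z, hz, hz0, hwK, hw, n1, n2⟩ := exists_w H hq hn hqn hK h0 h1 h2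
  obtain ⟨ζ, A, B, hO⟩ := exists_out H hq hn hwK hw n1 n2
  exact ⟨a, ha, ha0, z, hz, hz0, ζ, A, B, hO⟩

end Fermat.Agent.CAR.NRM
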