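import Fermat.Agent.CAR.NRM.Basic

/-!
# CAR / NRM / Unit (package NRM-U): normalisation of `x = κ y^n` when `x` is a unit

* `exists_unit_rep` : `x` a unit for the three valuations, `x = κ y^n` (`κ ∈ K^×`, `y ∈ F_K`) ⇒ we may take `|κ| = 1`, `y` a unit.
  (`vz`: `1 = ϖ^e (ϖ^f)^n`, replace `y` by `y q^(-f)`, `κ` by `κ q^(n f)`; then `vo y^n = 1`, `vm y^n = 1`, so `= 1`.)
* `nearPow_of_unit` : then `x ≡ y'^n` on the three branches with ONE `y' ∈ F_K` (`k` alg. closed: `κ̄ = λ^n`, lift `λ` by `constK`).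
* `const_of_pow_eq_C` : a Laurent series whose `n`-th power is a constant is a constant (`X^n - a` splits over `k`).
* `exists_const_root` : `x ≡ 1` on the three branches, `x = κ y^n` ⇒ we may take `y ≡ (1, r₂, r₃)`, `r_i ∈ μ_n(k)`.
-/

set_option autoImplicit false

noncomputable section

namespace Fermat.Agent.CAR.NRM

open Fermat.Agent.GAL.KL Fermat.Agent.GAL.KLC Fermat.Agent.TOR.T1

variable {L F k Γ₀ : Type*} [Field L] [Field F] [Algebra L F] [Field k]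
  [LinearOrderedCommGroupWithZero Γ₀] {D : Dat L F k Γ₀}

theorem exists_unit_rep (B : D.Base) {q : ℕ} (Dc : D.Disc q) {n : ℕ} (hn : 0 < n) {x : F}
    (hx : D.U3 x) (h : ∃ κ ∈ D.KK, κ ≠ 0 ∧ ∃ y ∈ D.FK, x = algebraMap L F κ * y ^ n) :
    ∃ κ ∈ D.KK, D.vL κ = 1 ∧ ∃ y ∈ D.FK, D.U3 y ∧ x = algebraMap L F κ * y ^ n := by
  obtain ⟨κ, hκ, hκ0, y, hy, hxy⟩ := h
  have hx0 : x ≠ 0 := hx.ne_zero
  have hy0 : y ≠ 0 := by
    rintro rfl
    rw [zero_pow hn.ne', mul_zero] at hxy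
    exact hx0 hxy
  obtain ⟨f, hf⟩ := Dc.dz y hy hy0
  have hq0 : (q : L) ≠ 0 := (Valuation.ne_zero_iff D.vL).1 Dc.q_ne
  have hqK : (q : L) ∈ D.KK := natCast_mem D.KK q
  set c : L := (q : L) ^ (-f) with hc
  have hc0 : c ≠ 0 := zpow_ne_zero _ hq0
  have hcK : c ∈ D.KK := zpow_mem hqK _
  have hcF0 : algebraMap L F c ≠ 0 := by simpa using hc0
  set y' : F := y * algebraMap L F c with hy'
  set κ' : L := κ * (c ^ n)⁻¹ with hκ'
  have hxy' : x = algebraMap L F κ' * y' ^ n := by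
    rw [hxy, hκ', hy', map_mul, map_inv₀, map_pow, mul_pow]
    field_simp
  have hz : D.vz y' = 1 := by
    rw [hy', map_mul, B.vLz, hf, hc, map_zpow₀, ← zpow_add₀ Dc.q_ne, add_neg_cancel, zpow_zero]
  have hκ1 : D.vL κ' = 1 := by
    have := hx.2.2
    rw [hxy', map_mul, map_pow, hz, one_pow, mul_one, B.vLz] at this
    exact this
  have ho : D.vo y' = 1 := by
    have := hx.1
    rw [hxy', map_mul, map_pow, B.vLo, hκ1, one_mul] at this
    exact (pow_eq_one_iff_left hn.ne').1 this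
  have hm : D.vm y' = 1 := by
    have := hx.2.1
    rw [hxy', map_mul, map_pow, B.vLm, hκ1, one_mul] at this
    exact (pow_eq_one_iff_left hn.ne').1 this
  exact ⟨κ', D.KK.mul_mem hκ (D.KK.inv_mem (D.KK.pow_mem hcK n)), hκ1, y',
    D.FK.mul_mem hy (B.KF c hcK), ⟨ho, hm, hz⟩, hxy'⟩

/-- `x` is an `n`-th power of an element of `F_K` up to `1 + m` on the three branches. -/
def Dat.NearPow (D : Dat L F k Γ₀) (n : ℕ) (x : F) : Prop :=
  ∃ y ∈ D.FK, D.U3 y ∧ D.Rd3 (x / y ^ n) 1 1 1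

theorem nearPow_of_unit [IsAlgClosed k] (B : D.Base) {q : ℕ} (Dc : D.Disc q) {n : ℕ} (hn : 0 < n)
    {x : F} (hx : D.U3 x) (h : ∃ κ ∈ D.KK, κ ≠ 0 ∧ ∃ y ∈ D.FK, x = algebraMap L F κ * y ^ n) :
    D.NearPow n x := by
  obtain ⟨κ, hκ, hκ1, y, hy, hyU, hxy⟩ := exists_unit_rep B Dc hn hx h
  obtain ⟨c, hc⟩ := B.constR κ hκ1.le
  have hc0 : c ≠ 0 := by
    rintro rfl
    have h1 := hc.1
    rw [map_zero] at h1
    have h2 := (rd_zero_iff B.redo).1 h1
    rw [B.vLo, hκ1] at h2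
    exact lt_irrefl _ h2
  obtain ⟨l, hl⟩ := IsAlgClosed.exists_pow_nat_eq c hn
  have hl0 : l ≠ 0 := by
    rintro rfl
    rw [zero_pow hn.ne'] at hl
    exact hc0 hl.symm
  obtain ⟨a, ha, haR⟩ := B.constK l
  have hCl : (HahnSeries.C l : LaurentSeries k) ≠ 0 := by
    intro h0
    exact hl0 (by simpa using h0)
  have hCln : (HahnSeries.C l : LaurentSeries k) ^ n ≠ 0 := pow_ne_zero _ hCl
  have haU : D.U3 (algebraMap L F a) := haR.u3 B hCl hCl hCl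
  refine ⟨algebraMap L F a * y, D.FK.mul_mem (B.KF a ha) hy, haU.mul hyU, ?_⟩
  have hy0 : y ≠ 0 := hyU.ne_zero
  have ha0 : algebraMap L F a ≠ 0 := haU.ne_zero
  have e1 : x / (algebraMap L F a * y) ^ n = algebraMap L F κ / algebraMap L F a ^ n := by
    rw [hxy, mul_pow]
    field_simp
  have e2 : (HahnSeries.C c : LaurentSeries k) / (HahnSeries.C l : LaurentSeries k) ^ n = 1 := by
    rw [← map_pow, hl, div_self]
    rw [← hl, map_pow]
    exact hCln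
  have := hc.div B (haR.pow n) hCln hCln hCln
  rw [e2] at this
  rw [e1]
  exact this

theorem const_of_pow_eq_C [IsAlgClosed k] {n : ℕ} (hn : 0 < n) {η : LaurentSeries k} {a : k}
    (h : η ^ n = HahnSeries.C a) : ∃ b : k, η = HahnSeries.C b ∧ b ^ n = a := by
  have hal : ∀ c : k, algebraMap k (LaurentSeries k) c = HahnSeries.C c := fun c => by
    rw [HahnSeries.algebraMap_apply']
    simp
  have hint : IsIntegral k η := by
    refine ⟨Polynomial.X ^ n - Polynomial.C a, Polynomial.monic_X_pow_sub_C a hn.ne', ?_⟩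
    rw [Polynomial.eval₂_sub, Polynomial.eval₂_pow, Polynomial.eval₂_X, Polynomial.eval₂_C, h,
      hal, sub_self]
  have hdeg : (minpoly k η).degree = 1 :=
    IsAlgClosed.degree_eq_one_of_irreducible k (minpoly.irreducible hint)
  obtain ⟨b, hb⟩ := minpoly.mem_range_of_degree_eq_one k η hdeg
  have hb' : η = HahnSeries.C b := by
    rw [← hb, hal]
  refine ⟨b, hb', ?_⟩
  apply HahnSeries.C_injective (Γ := ℤ)
  rw [map_pow, ← hb', h]

theorem exists_const_root [IsAlgClosed k] (B : D.Base) {q : ℕ} (Dc : D.Disc q) {n : ℕ}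
    (hn : 0 < n) {x : F} (hx : D.Rd3 x 1 1 1)
    (h : ∃ κ ∈ D.KK, κ ≠ 0 ∧ ∃ y ∈ D.FK, x = algebraMap L F κ * y ^ n) :
    ∃ y ∈ D.FK, ∃ κ : L, κ ≠ 0 ∧ x = algebraMap L F κ * y ^ n ∧
      ∃ r₂ r₃ : k, r₂ ^ n = 1 ∧ r₃ ^ n = 1 ∧ D.Rd3 y 1 (HahnSeries.C r₂) (HahnSeries.C r₃) := by
  have hC0 : ∀ {c : k}, c ≠ 0 → (HahnSeries.C c : LaurentSeries k) ≠ 0 := fun {c} hc h0 =>
    hc (HahnSeries.C_injective (Γ := ℤ) (by rw [h0, map_zero]))
  obtain ⟨κ, hκK, hκ1, y, hyK, hyU, hxy⟩ :=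
    exists_unit_rep B Dc hn (hx.u3 B one_ne_zero one_ne_zero one_ne_zero) h
  obtain ⟨a, b, c, ha, hb, hc, hy⟩ := hyU.exists_rd3 B
  obtain ⟨c0, hc0⟩ := B.constR κ hκ1.le
  have hκ0 : κ ≠ 0 := by
    rintro rfl
    rw [map_zero] at hκ1
    exact zero_ne_one hκ1
  have hprod := hc0.mul (hy.pow n)
  rw [← hxy] at hprod
  have e1 := hprod.1.unique hx.1
  have e2 := hprod.2.1.unique hx.2.1
  have e3 := hprod.2.2.unique hx.2.2
  have hc00 : c0 ≠ 0 := by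
    rintro rfl
    rw [map_zero, zero_mul] at e1
    exact zero_ne_one e1
  have key : ∀ {φ : LaurentSeries k}, HahnSeries.C c0 * φ ^ n = 1 → φ ^ n = HahnSeries.C c0⁻¹ := by
    intro φ hφ
    have h1 : (HahnSeries.C c0⁻¹ : LaurentSeries k) * HahnSeries.C c0 = 1 := by
      rw [← map_mul, inv_mul_cancel₀ hc00, map_one]
    calc φ ^ n = (HahnSeries.C c0⁻¹ * HahnSeries.C c0) * φ ^ n := by rw [h1, one_mul]
      _ = HahnSeries.C c0⁻¹ * (HahnSeries.C c0 * φ ^ n) := by ring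
      _ = HahnSeries.C c0⁻¹ := by rw [hφ, mul_one]
  obtain ⟨a0, rfl, ha0⟩ := const_of_pow_eq_C hn (key e1)
  obtain ⟨b0, rfl, hb0⟩ := const_of_pow_eq_C hn (key e2)
  obtain ⟨c1, rfl, hc1⟩ := const_of_pow_eq_C hn (key e3)
  have ha00 : a0 ≠ 0 := by
    rintro rfl
    exact ha (map_zero _)
  obtain ⟨l, hlK, hl⟩ := B.constK a0
  have hl0 : l ≠ 0 := by
    rintro rfl
    rw [map_zero] at hl
    exact hC0 ha00 (hl.1.unique Rd.zero)
  have hlF : algebraMap L F l ≠ 0 := by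
    rw [Ne, map_eq_zero]; exact hl0
  refine ⟨y / algebraMap L F l, D.FK.div_mem hyK (B.KF l hlK), κ * l ^ n,
    mul_ne_zero hκ0 (pow_ne_zero _ hl0), ?_, b0 / a0, c1 / a0, ?_, ?_, ?_⟩
  · rw [hxy, map_mul, map_pow, div_pow]
    field_simp
  · rw [div_pow, hb0, ha0, div_self (inv_ne_zero hc00)]
  · rw [div_pow, hc1, ha0, div_self (inv_ne_zero hc00)]
  · have := hy.div B hl (hC0 ha00) (hC0 ha00) (hC0 ha00)
    rwa [div_self (hC0 ha00), ← map_div₀, ← map_div₀] at this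

end Fermat.Agent.CAR.NRM
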